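import Fermat.Agent.ES.E.Tate
import Fermat.Agent.S54lib.FrobExists

/-!
# S37 library, part (ASM): group theoretic facts on decomposition, inertia and Frobenius
-/

set_option autoImplicit false

open ModularCurve AlgebraicCurve Fermat.Agent.ESlib

namespace Fermat.Agent.S37lib

variable {A : ValuationSubring Qb}

theorem inertia_mem_decomposition {i : Qb ≃ₐ[ℚ] Qb} (hi : i ∈ A.inertiaSubgroupIn ℚ) :
    i ∈ A.decompositionSubgroup ℚ := by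
  obtain ⟨g, -, rfl⟩ := Subgroup.mem_map.mp hi
  exact g.2

theorem inertia_conj {φ i : Qb ≃ₐ[ℚ] Qb} (hφ : φ ∈ A.decompositionSubgroup ℚ)
    (hi : i ∈ A.inertiaSubgroupIn ℚ) : φ * i * φ⁻¹ ∈ A.inertiaSubgroupIn ℚ := by
  obtain ⟨g, hg, rfl⟩ := Subgroup.mem_map.mp hi
  have hn : (A.inertiaSubgroup ℚ).Normal := MonoidHom.normal_ker _
  set f : A.decompositionSubgroup ℚ := ⟨φ, hφ⟩ with hf
  have h1 : f * g * f⁻¹ ∈ A.inertiaSubgroup ℚ := hn.conj_mem g hg f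
  refine Subgroup.mem_map.mpr ⟨f * g * f⁻¹, h1, ?_⟩
  rw [map_mul, map_mul, map_inv]
  rfl

theorem frobenius_inv_mul_mem {ℓ : ℕ} {σ φ : Qb ≃ₐ[ℚ] Qb} (hσ : A.IsFrobeniusAt σ ℓ)
    (hφ : A.IsFrobeniusAt φ ℓ) : φ⁻¹ * σ ∈ A.inertiaSubgroupIn ℚ := by
  obtain ⟨hσd, hσf⟩ := hσ
  obtain ⟨hφd, hφf⟩ := hφ
  refine Subgroup.mem_map.mpr ⟨⟨φ, hφd⟩⁻¹ * ⟨σ, hσd⟩, ?_, rfl⟩
  refine MonoidHom.mem_ker.mpr ?_
  ext x
  show (⟨φ, hφd⟩⁻¹ * ⟨σ, hσd⟩ : A.decompositionSubgroup ℚ) • x = x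
  rw [mul_smul, hσf x, ← hφf x, inv_smul_smul]

theorem exists_frobenius {ℓ : ℕ} (hℓ : ℓ.Prime) (hA : A.LiesOverPrime ℓ) :
    ∃ φ : Qb ≃ₐ[ℚ] Qb, A.IsFrobeniusAt φ ℓ :=
  Fermat.Agent.FrobExists.exists_isFrobeniusAt A hℓ hA

/-- some positive power of `φ` fixes a given function -/
theorem exists_pow_galF_eq {N : ℕ} (u : modularFunctionFieldBar N) (φ : Qb ≃ₐ[ℚ] Qb) :
    ∃ r : ℕ, 0 < r ∧ galF N (φ ^ r) u = u := by
  obtain ⟨L, hL, hfix⟩ := exists_finite_level_fix u.2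
  have hgal : IsGalois ℚ Qb := Fermat.Agent.FrobExists.isGaloisQb
  have hidx : L.fixingSubgroup.index ≠ 0 := by
    rw [← IntermediateField.finrank_eq_fixingSubgroup_index]
    exact Module.finrank_pos.ne'
  obtain ⟨r, hr, -, hmem⟩ := Subgroup.exists_pow_mem_of_index_ne_zero hidx φ
  refine ⟨r, hr, Subtype.ext (hfix _ fun x hx => ?_)⟩
  exact (IntermediateField.mem_fixingSubgroup_iff L _).1 hmem x hx

end Fermat.Agent.S37lib
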