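import Mathlib

/-!
# S37 library, part (HK): abstract field theory used for `N_α (β h) = heckeTS ℓ ζ h`
-/

set_option autoImplicit false
set_option linter.style.haveILetI false

open Polynomial IntermediateField

namespace Fermat.Agent.S37lib

/-- Lagrange interpolation: a polynomial over `W` which takes values in the subfield `j(F)` at
infinitely many points of `j(F)` has coefficients in `j(F)`. -/
theorem exists_map_eq_of_values {F W : Type*} [Field F] [Field W] (j : F →+* W) (P : W[X])
    (S : Set F) (hS : S.Infinite) (h : ∀ c ∈ S, ∃ y : F, j y = P.eval (j c)) :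
    ∃ Q : F[X], Q.map j = P := by
  classical
  obtain ⟨s, hsS, hcard⟩ := hS.exists_subset_card_eq (P.natDegree + 1)
  choose! y hy using h
  refine ⟨Lagrange.interpolate s id y, ?_⟩
  have hinj : Set.InjOn (id : F → F) s := Function.injective_id.injOn
  have hcard' : (s.image j).card = P.natDegree + 1 := by
    rw [Finset.card_image_of_injective _ j.injective, hcard]
  refine Polynomial.eq_of_degrees_lt_of_eval_finset_eq (s.image j) ?_ ?_ ?_
  · rw [hcard', degree_map]
    have := Lagrange.degree_interpolate_lt (r := y) hinj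
    rwa [hcard] at this
  · rw [hcard']
    exact lt_of_le_of_lt degree_le_natDegree (by exact_mod_cast Nat.lt_succ_self _)
  · intro x hx
    obtain ⟨c, hc, rfl⟩ := Finset.mem_image.1 hx
    rw [eval_map, eval₂_hom, ← hy c (hsS hc)]
    congr 1
    exact Lagrange.eval_interpolate_at_node y hinj hc

/-- the norm of a generator `x` whose conjugates are known -/
theorem norm_eq_prod_of_map_eq {F E W : Type*} [Field F] [Field E] [Field W] [Algebra F E]
    [FiniteDimensional F E] (ι : E →+* W) {x : E} (hx : F⟮x⟯ = ⊤) (m : Multiset W)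
    (hm : Multiset.card m = Module.finrank F E) (hxm : ι x ∈ m) (Q : F[X])
    (hQ : Q.map (ι.comp (algebraMap F E)) = (m.map fun a => X - C a).prod) :
    ι (algebraMap F E (Algebra.norm F x)) = m.prod := by
  set j : F →+* W := ι.comp (algebraMap F E) with hj
  letI : Algebra F W := j.toAlgebra
  have hint : IsIntegral F x := Algebra.IsIntegral.isIntegral x
  have hQm : Q.Monic := by
    apply Polynomial.monic_of_injective j.injective
    rw [hQ]
    exact monic_multiset_prod_of_monic _ _ fun a _ => monic_X_sub_C a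
  have hQd : Q.natDegree = Module.finrank F E := by
    rw [← natDegree_map j, hQ, natDegree_multiset_prod_X_sub_C_eq_card, hm]
  have hroot : aeval x Q = 0 := by
    apply ι.injective
    rw [map_zero, aeval_def, hom_eval₂, ← eval_map, ← hj, hQ]
    have : ι x ∈ ((m.map fun a => X - C a).prod).roots := by
      rwa [roots_multiset_prod_X_sub_C]
    exact isRoot_of_mem_roots this
  have hmd : (minpoly F x).natDegree = Module.finrank F E := by
    rw [← IntermediateField.adjoin.finrank hint, hx, IntermediateField.finrank_top']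
  have hQmin : Q = minpoly F x :=
    eq_of_monic_of_dvd_of_natDegree_le (minpoly.monic hint) hQm (minpoly.dvd F x hroot)
      (by rw [hQd, hmd])
  have hmap : (minpoly F x).map (algebraMap F W) = (m.map fun a => X - C a).prod := by
    rw [← hQmin]; exact hQ
  have hsp : ((minpoly F x).map (algebraMap F W)).Splits := by
    rw [hmap]
    refine Splits.multisetProd fun f hf => ?_
    obtain ⟨a, -, rfl⟩ := Multiset.mem_map.1 hf
    exact Splits.X_sub_C a
  have h1 := Algebra.norm_eq_prod_roots (K := F) (L := E) (F := W) (x := x) hsp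
  have h2 : Module.finrank F⟮x⟯ E = 1 := by
    rw [hx]; exact IntermediateField.finrank_top
  rw [h2, pow_one, aroots_def, hmap, roots_multiset_prod_X_sub_C] at h1
  exact h1

/-- pigeonhole on intermediate fields -/
theorem exists_adjoin_add_smul {K F E : Type*} [Field K] [Infinite K] [Field F] [Field E]
    [Algebra K F] [Algebra F E] [Algebra K E] [IsScalarTower K F E]
    [Finite (IntermediateField F E)] (a b : E) :
    ∃ c : K, a ∈ F⟮a + c • b⟯ ∧ b ∈ F⟮a + c • b⟯ := by
  obtain ⟨c, c', hne, heq⟩ := Finite.exists_ne_map_eq_of_infinite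
    (fun c : K => F⟮a + c • b⟯)
  replace heq : F⟮a + c • b⟯ = F⟮a + c' • b⟯ := heq
  have h1 : a + c • b ∈ F⟮a + c • b⟯ := mem_adjoin_simple_self F _
  have h2 : a + c' • b ∈ F⟮a + c • b⟯ := heq ▸ mem_adjoin_simple_self F _
  have h3 : (c - c') • b ∈ F⟮a + c • b⟯ := by
    have := sub_mem h1 h2
    rwa [add_sub_add_left_eq_sub, ← sub_smul] at this
  have hb : b ∈ F⟮a + c • b⟯ := by
    have h4 : b = algebraMap F E (algebraMap K F (c - c')⁻¹) * ((c - c') • b) := by
      rw [← IsScalarTower.algebraMap_apply, ← Algebra.smul_def, smul_smul,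
        inv_mul_cancel₀ (sub_ne_zero.2 hne), one_smul]
    have h4' : algebraMap F E (algebraMap K F (c - c')⁻¹) * ((c - c') • b) ∈ F⟮a + c • b⟯ :=
      mul_mem (IntermediateField.algebraMap_mem _ _) h3
    rwa [← h4] at h4'
  refine ⟨c, ?_, hb⟩
  have h5 : c • b ∈ F⟮a + c • b⟯ := by
    have h5' : algebraMap F E (algebraMap K F c) * b ∈ F⟮a + c • b⟯ :=
      mul_mem (IntermediateField.algebraMap_mem _ _) hb
    rwa [← IsScalarTower.algebraMap_apply K F E, ← Algebra.smul_def] at h5'
  have := sub_mem h1 h5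
  rwa [add_sub_cancel_right] at this

/-- a `K`-subalgebra `V` generating `E` over `F` contains a primitive element -/
theorem exists_primitive_mem {K F E : Type*} [Field K] [Infinite K] [Field F] [Field E]
    [Algebra K F] [Algebra F E] [Algebra K E] [IsScalarTower K F E] [FiniteDimensional F E]
    [Finite (IntermediateField F E)] (V : Subalgebra K E)
    (hV : IntermediateField.adjoin F (V : Set E) = ⊤) : ∃ z ∈ V, F⟮z⟯ = ⊤ := by
  classical
  let T := {M : IntermediateField F E // ∃ z ∈ V, M = F⟮z⟯}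
  haveI : Nonempty T := ⟨⟨F⟮(0 : E)⟯, 0, V.zero_mem, rfl⟩⟩
  obtain ⟨⟨M₀, z₀, hz₀, rfl⟩, hmax⟩ := Finite.exists_max (fun M : T => Module.finrank F M.1)
  refine ⟨z₀, hz₀, ?_⟩
  by_contra hne
  have : ∃ v ∈ V, v ∉ F⟮z₀⟯ := by
    by_contra hcon
    push Not at hcon
    apply hne
    rw [eq_top_iff, ← hV, IntermediateField.adjoin_le_iff]
    exact fun v hv => hcon v hv
  obtain ⟨v, hv, hvn⟩ := this
  obtain ⟨c, h1, h2⟩ := exists_adjoin_add_smul (K := K) (F := F) z₀ v
  have hle : F⟮z₀⟯ ≤ F⟮z₀ + c • v⟯ := by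
    rw [IntermediateField.adjoin_simple_le_iff]; exact h1
  have hlt : F⟮z₀⟯ < F⟮z₀ + c • v⟯ := lt_of_le_of_ne hle fun h => hvn (h ▸ h2)
  have h3 := hmax ⟨F⟮z₀ + c • v⟯, _, V.add_mem hz₀ (V.smul_mem hv c), rfl⟩
  have h4 : Module.finrank F F⟮z₀⟯ < Module.finrank F F⟮z₀ + c • v⟯ :=
    Submodule.finrank_lt_finrank_of_lt (s := F⟮z₀⟯.toSubalgebra.toSubmodule)
      (t := F⟮z₀ + c • v⟯.toSubalgebra.toSubmodule) hlt
  exact absurd h3 (not_le.2 h4)

/-- every non-zero `y ∈ V` is a quotient of two primitive elements lying in `V` -/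
theorem exists_primitive_mul {K F E : Type*} [Field K] [Infinite K] [Field F] [Field E]
    [Algebra K F] [Algebra F E] [Algebra K E] [IsScalarTower K F E] [FiniteDimensional F E]
    [Finite (IntermediateField F E)] (V : Subalgebra K E)
    (hV : IntermediateField.adjoin F (V : Set E) = ⊤) {y : E} (hy0 : y ≠ 0) :
    ∃ z ∈ V, F⟮z⟯ = ⊤ ∧ F⟮y * z⟯ = ⊤ := by
  obtain ⟨z₀, hz₀, hz⟩ := exists_primitive_mem V hV
  obtain ⟨c, h1, h2⟩ := exists_adjoin_add_smul (K := K) (F := F) (y * z₀) y
  have hc : algebraMap K E c = algebraMap F E (algebraMap K F c) :=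
    IsScalarTower.algebraMap_apply K F E c
  refine ⟨z₀ + algebraMap K E c, V.add_mem hz₀ (V.algebraMap_mem c), ?_, ?_⟩
  · rw [eq_top_iff, ← hz, IntermediateField.adjoin_simple_le_iff]
    have h3 : z₀ + algebraMap K E c ∈ F⟮z₀ + algebraMap K E c⟯ := mem_adjoin_simple_self F _
    have h4 : algebraMap K E c ∈ F⟮z₀ + algebraMap K E c⟯ := by
      rw [hc]; exact IntermediateField.algebraMap_mem _ _
    have := sub_mem h3 h4
    rwa [add_sub_cancel_right] at this
  · have h5 : y * (z₀ + algebraMap K E c) = y * z₀ + c • y := by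
      rw [mul_add, Algebra.smul_def, mul_comm y (algebraMap K E c)]
    rw [h5, eq_top_iff, ← hz, IntermediateField.adjoin_simple_le_iff]
    have h6 : z₀ = y⁻¹ * (y * z₀) := by
      rw [← mul_assoc, inv_mul_cancel₀ hy0, one_mul]
    have h7 : y⁻¹ * (y * z₀) ∈ F⟮y * z₀ + c • y⟯ := mul_mem (inv_mem h2) h1
    rwa [← h6] at h7

/-- a multiplicative map which computes the norm of `β g` for the primitive elements `β g`
computes it for all elements -/
theorem norm_eq_of_generators {K F E : Type*} [Field K] [Infinite K] [Field F] [Field E]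
    [Algebra K F] [Algebra F E] [Algebra K E] [IsScalarTower K F E] [FiniteDimensional F E]
    [Algebra.IsSeparable F E] (β : F →ₐ[K] E) (T : F → F) (T0 : T 0 = 0)
    (Tmul : ∀ a b, T (a * b) = T a * T b)
    (hgen : ∀ g : F, F⟮β g⟯ = ⊤ → Algebra.norm F (β g) = T g)
    (hV : IntermediateField.adjoin F ((β.range : Subalgebra K E) : Set E) = ⊤)
    (hne : Module.finrank F E ≠ 1) (h : F) : Algebra.norm F (β h) = T h := by
  haveI : Finite (IntermediateField F E) :=
    Field.finite_intermediateField_of_exists_primitive_element F E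
      (Field.exists_primitive_element F E)
  rcases eq_or_ne h 0 with rfl | h0
  · rw [map_zero, Algebra.norm_zero, T0]
  have hy0 : β h ≠ 0 := (_root_.map_ne_zero β).2 h0
  obtain ⟨_, ⟨g, rfl⟩, hg1, hg2⟩ := exists_primitive_mul (K := K) (F := F) (E := E)
    β.range hV hy0
  replace hg1 : F⟮β g⟯ = ⊤ := hg1
  replace hg2 : F⟮β h * β g⟯ = ⊤ := hg2
  have e1 := hgen g hg1
  have e2 := hgen (h * g) (by rw [map_mul]; exact hg2)
  have hg0 : β g ≠ 0 := by
    intro h1
    rw [h1, IntermediateField.adjoin_zero, IntermediateField.bot_eq_top_iff_finrank_eq_one] at hg1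
    exact hne hg1
  have hn0 : Algebra.norm F (β g) ≠ 0 := Algebra.norm_ne_zero_iff.2 hg0
  rw [map_mul, map_mul, Tmul] at e2
  apply mul_right_cancel₀ hn0
  rw [e2, e1]

end Fermat.Agent.S37lib
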