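import Fermat.Agent.S37.HKInputs
import Fermat.Agent.S37.HKAlg
import Fermat.Agent.ES.A.HeckeFunBar
import Fermat.Agent.ES.K.Level

/-!
# S37 library, part (HK), row HK5: `N_α (β h) = heckeTS ℓ ζ h` for `ℓ ∤ N`

Algebraic proof.  `Ψ_h(X) = (X - h(t^{ℓ²})) ∏_b (X - h(ζ^b t))` (everything expanded in the variable
`t`, `q = t^ℓ`) takes the value `heckeTS (c - h) ∈ F` at every constant `c`, hence has coefficients
in `F`; it is monic of degree `ℓ + 1 = [F' : F]` and kills `β h`.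
-/

set_option autoImplicit false
set_option linter.style.haveILetI false
set_option linter.unusedSectionVars false

open AlgebraicCurve ModularCurve Fermat.Agent.S24RH Fermat.Agent.S24lib Fermat.Agent.ESlib
open Fermat.Agent.S28lib Polynomial IntermediateField

namespace Fermat.Agent.S37lib

variable {N ℓ : ℕ} [NeZero N] [NeZero ℓ]

/-- the conjugates of `h(q^ℓ)`, in the variable `t = q^{1/ℓ}` -/
noncomputable def conjMS (ℓ : ℕ) [NeZero ℓ] (ζ : Kbˣ) (h : LaurentSeries Kb) :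
    Multiset (LaurentSeries Kb) :=
  qExpand Kb ℓ (qExpand Kb ℓ h) ::ₘ (Multiset.range ℓ).map fun b => scale (ζ ^ b) h

theorem card_conjMS (ζ : Kbˣ) (h : LaurentSeries Kb) : Multiset.card (conjMS ℓ ζ h) = ℓ + 1 := by
  simp [conjMS]

theorem prod_conjMS {ζ : Kbˣ} (hζ : IsPrimitiveRoot ζ ℓ) (h : LaurentSeries Kb) :
    (conjMS ℓ ζ h).prod = qExpand Kb ℓ (heckeTS ℓ ζ h) := by
  rw [conjMS, Multiset.prod_cons, heckeTS, map_mul, qExpand_normU hζ, rotProd]
  rfl

theorem eval_conjMS {ζ : Kbˣ} (hζ : IsPrimitiveRoot ζ ℓ) (h : LaurentSeries Kb) (c : Kb) :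
    (((conjMS ℓ ζ h).map fun a => X - C a).prod).eval (HahnSeries.C c) =
      qExpand Kb ℓ (heckeTS ℓ ζ (HahnSeries.C c - h)) := by
  rw [← prod_conjMS hζ, eval_multiset_prod, Multiset.map_map, conjMS, conjMS, Multiset.map_cons,
    Multiset.prod_cons, Multiset.prod_cons, Multiset.map_map]
  congr 1
  · simp
  · congr 1
    refine Multiset.map_congr rfl fun b _ => ?_
    simp only [Function.comp_apply, eval_sub, eval_X, eval_C, map_sub, scale_C]


/-! ### the field extension -/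

section ext

variable (N ℓ)

/-- `F = F(N)` -/
local notation "FF" => modularFunctionFieldBar N
/-- `F' = F(N ℓ)` -/
local notation "EE" => modularFunctionFieldBar (N * ℓ)

/-- the embedding `F(Nℓ) → ℚ̄((t))`, `q = t^ℓ` -/
noncomputable def iotaE : EE →+* LaurentSeries Kb :=
  (qExpand Kb ℓ).comp (algebraMap EE (LaurentSeries Kb))

theorem iotaE_apply (x : EE) : iotaE N ℓ x = qExpand Kb ℓ (x : LaurentSeries Kb) := rfl

theorem finrank_alpha (hℓ : ℓ.Prime) (hℓN : ¬ ℓ ∣ N) :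
    letI := algebraAlong (heckeAlphaBar Kb N ℓ)
    Module.finrank FF EE = ℓ + 1 :=
  Level.finrank_level N ℓ hℓ hℓN

theorem C_mem_bar (a : Kb) : (HahnSeries.C a : LaurentSeries Kb) ∈ FF := by
  have h := (FF).algebraMap_mem a
  rwa [algebraMap_laurentSeries_eq_single] at h

theorem iotaE_alpha (x : FF) :
    iotaE N ℓ (heckeAlphaBar Kb N ℓ x) = qExpand Kb ℓ (x : LaurentSeries Kb) := by
  rw [iotaE_apply, coe_heckeAlphaBar]

theorem iotaE_beta (x : FF) :
    iotaE N ℓ (heckeBetaBar Kb N ℓ x) = qExpand Kb ℓ (qExpand Kb ℓ (x : LaurentSeries Kb)) := by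
  rw [iotaE_apply, coe_heckeBetaBar]

theorem iotaE_comp_apply (x : FF) :
    letI := algebraAlong (heckeAlphaBar Kb N ℓ)
    ((iotaE N ℓ).comp (algebraMap FF EE)) x = qExpand Kb ℓ (x : LaurentSeries Kb) := by
  letI := algebraAlong (heckeAlphaBar Kb N ℓ)
  rw [RingHom.comp_apply]
  exact iotaE_alpha N ℓ x

theorem coe_algebraMap_bar (a : Kb) :
    ((algebraMap Kb FF a : FF) : LaurentSeries Kb) = HahnSeries.C a := by
  rw [IntermediateField.coe_algebraMap_apply, algebraMap_laurentSeries_eq_single]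
  rfl

variable {N ℓ}

theorem norm_of_generator (hℓ : ℓ.Prime) (hℓN : ¬ ℓ ∣ N) {ζ : Kbˣ} (hζ : IsPrimitiveRoot ζ ℓ)
    (h : FF)
    (hgen : letI := algebraAlong (heckeAlphaBar Kb N ℓ)
      (IntermediateField.adjoin FF {heckeBetaBar Kb N ℓ h} : IntermediateField FF EE) = ⊤) :
    letI := algebraAlong (heckeAlphaBar Kb N ℓ)
    Algebra.norm FF (heckeBetaBar Kb N ℓ h) =
      ⟨heckeTS ℓ ζ (h : LaurentSeries Kb), heckeTS_mem_bar hℓ hℓN hζ _ h.2⟩ := by
  letI := algebraAlong (heckeAlphaBar Kb N ℓ)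
  haveI : FiniteDimensional FF EE := finiteAlong_alpha N ℓ
  obtain ⟨Q, hQ⟩ := exists_map_eq_of_values ((iotaE N ℓ).comp (algebraMap FF EE))
    (((conjMS ℓ ζ (h : LaurentSeries Kb)).map fun a => X - C a).prod)
    (Set.range (algebraMap Kb FF))
    (Set.infinite_range_of_injective (algebraMap Kb FF).injective) (by
      rintro _ ⟨a, rfl⟩
      refine ⟨⟨heckeTS ℓ ζ (HahnSeries.C a - (h : LaurentSeries Kb)),
        heckeTS_mem_bar hℓ hℓN hζ _ (sub_mem (C_mem_bar N a) h.2)⟩, ?_⟩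
      rw [iotaE_comp_apply, iotaE_comp_apply, coe_algebraMap_bar, qExpand_C, eval_conjMS hζ])
  have h2 := norm_eq_prod_of_map_eq (iotaE N ℓ) hgen (conjMS ℓ ζ (h : LaurentSeries Kb))
    (by rw [card_conjMS]; exact (finrank_alpha N ℓ hℓ hℓN).symm)
    (by rw [iotaE_beta, conjMS]; exact Multiset.mem_cons_self _ _) Q hQ
  rw [prod_conjMS hζ] at h2
  have h3 := iotaE_comp_apply N ℓ (Algebra.norm FF (heckeBetaBar Kb N ℓ h))
  rw [RingHom.comp_apply, h2] at h3
  exact Subtype.ext (qExpand_injective (R := Kb) ℓ h3).symm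

variable (N ℓ) in
theorem Jgen_mem_adjoin (hℓ : ℓ.Prime) (d : Dv (N * ℓ)) :
    letI := algebraAlong (heckeAlphaBar Kb N ℓ)
    Jgen Kb (N * ℓ) d ∈ IntermediateField.adjoin FF
      (((heckeBetaBar Kb N ℓ).range : Subalgebra Kb EE) : Set EE) := by
  letI := algebraAlong (heckeAlphaBar Kb N ℓ)
  by_cases hd : ℓ ∣ d.1
  · obtain ⟨d', hd'⟩ := hd
    have hd'N : d' ∣ N := by
      have h1 := d.2
      rw [hd', mul_comm N ℓ] at h1
      exact Nat.dvd_of_mul_dvd_mul_left hℓ.pos h1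
    apply IntermediateField.subset_adjoin
    refine ⟨Jgen Kb N ⟨d', hd'N⟩, ?_⟩
    apply Subtype.ext
    haveI : NeZero d' := neZero_Dv N ⟨d', hd'N⟩
    show qExpand Kb ℓ (coeffEmb Kb (qExpand ℚ d' jq)) = coeffEmb Kb (qExpand ℚ d.1 jq)
    rw [coeffEmb, ← coeffMap_qExpand, qExpand_qExpand]
    congr 1
    exact qExpand_congr hd'.symm _
  · have hdN : d.1 ∣ N := by
      have h1 : Nat.Coprime d.1 ℓ := ((Nat.Prime.coprime_iff_not_dvd hℓ).2 hd).symm
      exact h1.dvd_of_dvd_mul_right d.2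
    have h2 : Jgen Kb (N * ℓ) d = algebraMap FF EE (Jgen Kb N ⟨d.1, hdN⟩) := by
      apply Subtype.ext
      exact (coe_heckeAlphaBar N ℓ (Jgen Kb N ⟨d.1, hdN⟩)).symm
    rw [h2]
    exact IntermediateField.algebraMap_mem _ _

variable (N ℓ) in
theorem adjoin_range_beta (hℓ : ℓ.Prime) :
    letI := algebraAlong (heckeAlphaBar Kb N ℓ)
    IntermediateField.adjoin FF
      (((heckeBetaBar Kb N ℓ).range : Subalgebra Kb EE) : Set EE) = ⊤ := by
  letI := algebraAlong (heckeAlphaBar Kb N ℓ)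
  haveI := isScalarTower_along (heckeAlphaBar Kb N ℓ)
  rw [← IntermediateField.restrictScalars_eq_top_iff (K := Kb), eq_top_iff,
    ← adjoin_range_Jgen (K := Kb) (N * ℓ), IntermediateField.adjoin_le_iff]
  rintro _ ⟨d, rfl⟩
  exact Jgen_mem_adjoin N ℓ hℓ d

/-- HK5 -/
theorem norm_alpha_beta (hℓ : ℓ.Prime) (hℓN : ¬ ℓ ∣ N) {ζ : Kbˣ} (hζ : IsPrimitiveRoot ζ ℓ)
    (h : modularFunctionFieldBar N) :
    letI := algebraAlong (heckeAlphaBar Kb N ℓ)
    Algebra.norm (modularFunctionFieldBar N) (heckeBetaBar Kb N ℓ h) =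
      ⟨heckeTS ℓ ζ (h : LaurentSeries Kb), heckeTS_mem_bar hℓ hℓN hζ _ h.2⟩ := by
  letI := algebraAlong (heckeAlphaBar Kb N ℓ)
  haveI := isScalarTower_along (heckeAlphaBar Kb N ℓ)
  haveI : FiniteDimensional FF EE := finiteAlong_alpha N ℓ
  exact norm_eq_of_generators (K := Kb) (F := FF) (E := EE) (heckeBetaBar Kb N ℓ)
    (fun h => ⟨heckeTS ℓ ζ (h : LaurentSeries Kb), heckeTS_mem_bar hℓ hℓN hζ _ h.2⟩)
    (Subtype.ext (map_zero (heckeTSHom hζ)))
    (fun a b => Subtype.ext (map_mul (heckeTSHom hζ) _ _))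
    (fun g hg => norm_of_generator hℓ hℓN hζ g hg)
    (adjoin_range_beta N ℓ hℓ)
    (by rw [finrank_alpha N ℓ hℓ hℓN]; have := hℓ.pos; omega) h

end ext

end Fermat.Agent.S37lib
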