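import Fermat.Agent.S24.RHMain
import Fermat.Agent.S37.HK.FFGen
import Fermat.Prelude.Def_AlgebraicCurve_Correspondence

/-!
# S37 library, part (HK): general function fields, row HK2 (norm formula)

`∑_{w ∣ v} f(w ∣ v) ord_w f = ord_v (N_{F'/F} f)`.
-/

set_option autoImplicit false

open AlgebraicCurve Fermat.Agent.S24RH

namespace Fermat.Agent.S37lib

variable {K F F' : Type*} [Field K] [Field F] [Field F'] [Algebra K F] [Algebra K F']
  [IsAlgClosed K] [CharZero K]
  [Algebra F F'] [IsScalarTower K F F'] [Algebra.IsIntegral F F']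

/-- HK2.  Proof: `A := v.toValuationSubring`, `B :=` integral closure of `A` in `F'` (Dedekind,
finite over `A`); `Ideal.relNorm_singleton`, `Ideal.relNorm_eq_pow_of_isMaximal`,
`Algebra.algebraMap_intNorm`, factorisation of `span {b}`; the primes of `B` are the places over
`v` (`S24RH.exists_heightOneSpectrum`, `S24RH.ord_ofHeightOneSpectrum`); all inertia degrees are
one. -/
theorem pushforwardNormFormula_of_isFF (hFF : IsFF K F) (hFF' : IsFF K F')
    [Module.Finite F F'] : Divisor.PushforwardNormFormula K F F' := by
  classical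
  intro f hf D hD v
  obtain ⟨t, ht, -, hnorm⟩ := exists_fibre_data (F' := F') hFF v
  rw [Divisor.pushforward_apply, ← hnorm f hf, ← Finset.sum_filter]
  have hin : ∀ w : Place K F', w.inertiaDeg F = 1 := by
    intro w
    have h := w.deg_restrict_mul_inertiaDeg (F := F)
    rwa [deg_eq_one hFF, deg_eq_one hFF', one_mul] at h
  have hsub : D.support.filter (fun w => w.restrict F = v) ⊆ t := by
    intro w hw
    exact (ht w).2 (Finset.mem_filter.1 hw).2
  rw [← Finset.sum_subset hsub]
  · refine Finset.sum_congr rfl fun w _ => ?_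
    rw [hin w, hD w, Nat.cast_one, mul_one]
  · intro w hw hw'
    rw [Finset.mem_filter, not_and_or] at hw'
    rcases hw' with h | h
    · rw [Finsupp.mem_support_iff, not_not, hD w] at h
      exact h
    · exact absurd ((ht w).1 hw) h

end Fermat.Agent.S37lib
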