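import Fermat.Agent.S37.HKFund
import Fermat.Agent.S37.HKNorm
import Fermat.Agent.ES.Dict.Places
import Fermat.Prelude.Def_ModularCurve_HeckeModule

/-!
# S37 library, part (HK), row HK3: the inputs of the Hecke correspondence hold
-/

set_option autoImplicit false
set_option linter.style.haveILetI false

open AlgebraicCurve ModularCurve Fermat.Agent.S24RH Fermat.Agent.S24lib Fermat.Agent.ESlib

namespace Fermat.Agent.S37lib

section general

variable {K F F' : Type*} [Field K] [Field F] [Field F'] [Algebra K F] [Algebra K F']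

open IntermediateField in
/-- HK3a: a `K`-homomorphism of function fields is finite.  (`x ∈ F` transcendental, then `φ x` is
transcendental, `F'` is finite over `K(φ x)` by `IsFF.finiteDimensional`, a fortiori over `F`.) -/
theorem finiteAlong_of_isFF (hFF : IsFF K F) (hFF' : IsFF K F') (φ : F →ₐ[K] F') :
    FiniteAlong K φ := by
  obtain ⟨x, hx, -⟩ := hFF
  have hx' : Transcendental K (φ x) := by
    intro h
    exact hx ((isAlgebraic_algHom_iff φ φ.toRingHom.injective).1 h)
  haveI := hFF'.finiteDimensional hx'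
  letI := algebraAlong φ
  haveI := isScalarTower_along φ
  show Module.Finite F F'
  -- `K(φ x) → F'` factors through `F`
  obtain ⟨s, hs⟩ := (inferInstance : Module.Finite K⟮φ x⟯ F').fg_top
  refine ⟨⟨s, ?_⟩⟩
  rw [eq_top_iff]
  intro y _
  have hy : y ∈ Submodule.span K⟮φ x⟯ (s : Set F') := hs ▸ Submodule.mem_top
  have hle : ∀ a : K⟮φ x⟯, ∃ b : F, φ b = (a : F') := by
    intro a
    have h1 : K⟮φ x⟯ ≤ φ.fieldRange := by
      rw [IntermediateField.adjoin_le_iff]
      rintro _ rfl
      exact ⟨x, rfl⟩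
    obtain ⟨b, hb⟩ := h1 a.2
    exact ⟨b, hb⟩
  induction hy using Submodule.span_induction with
  | mem z hz => exact Submodule.subset_span hz
  | zero => exact zero_mem _
  | add u v _ _ hu hv => exact add_mem (hu trivial) (hv trivial)
  | smul a u _ hu =>
    obtain ⟨b, hb⟩ := hle a
    have : a • u = b • u := by
      rw [Algebra.smul_def, Algebra.smul_def]
      show (a : F') * u = φ b * u
      rw [hb]
    rw [this]
    exact Submodule.smul_mem _ _ (hu trivial)

theorem isIntegral_of_finiteAlong (φ : F →ₐ[K] F') (h : FiniteAlong K φ) :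
    φ.toRingHom.IsIntegral := by
  letI := algebraAlong φ
  haveI : Module.Finite F F' := h
  exact (inferInstance : Algebra.IsIntegral F F').isIntegral

end general

variable (N ℓ : ℕ) [NeZero N] [NeZero ℓ]

instance instNeZeroMulHK : NeZero (N * ℓ) := ⟨Nat.mul_ne_zero (NeZero.ne N) (NeZero.ne ℓ)⟩

theorem hasPrincipalDivisors_bar : HasPrincipalDivisors Kb (modularFunctionFieldBar N) :=
  hasPrincipalDivisors_of_isFF (isFF_FK N)

theorem finiteAlong_alpha : FiniteAlong Kb (heckeAlphaBar Kb N ℓ) :=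
  finiteAlong_of_isFF (isFF_FK N) (isFF_FK (N * ℓ)) _

theorem finiteAlong_beta : FiniteAlong Kb (heckeBetaBar Kb N ℓ) :=
  finiteAlong_of_isFF (isFF_FK N) (isFF_FK (N * ℓ)) _

theorem heckeAlphaBarIntegral : HeckeAlphaBarIntegral Kb N ℓ :=
  isIntegral_of_finiteAlong _ (finiteAlong_alpha N ℓ)

theorem heckeBetaBarIntegral : HeckeBetaBarIntegral Kb N ℓ :=
  isIntegral_of_finiteAlong _ (finiteAlong_beta N ℓ)

/-- HK3b -/
theorem fundamentalIdentityAlong_beta :
    haveI := hasPrincipalDivisors_bar (N * ℓ)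
    FundamentalIdentityAlong Kb (heckeBetaBar Kb N ℓ) (heckeBetaBarIntegral N ℓ) := by
  haveI := hasPrincipalDivisors_bar (N * ℓ)
  letI := algebraAlong (heckeBetaBar Kb N ℓ)
  haveI := isScalarTower_along (heckeBetaBar Kb N ℓ)
  haveI := isIntegral_along (heckeBetaBar Kb N ℓ) (heckeBetaBarIntegral N ℓ)
  haveI : FiniteDimensional (modularFunctionFieldBar N) (modularFunctionFieldBar (N * ℓ)) :=
    finiteAlong_beta N ℓ
  exact fundamentalIdentity_of_isFF (isFF_FK N) (isFF_FK (N * ℓ))

/-- HK3b -/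
theorem normFormulaAlong_alpha :
    NormFormulaAlong Kb (heckeAlphaBar Kb N ℓ) (finiteAlong_alpha N ℓ) := by
  letI := algebraAlong (heckeAlphaBar Kb N ℓ)
  haveI := isScalarTower_along (heckeAlphaBar Kb N ℓ)
  haveI := isIntegral_along (heckeAlphaBar Kb N ℓ) (heckeAlphaBarIntegral N ℓ)
  haveI : Module.Finite (modularFunctionFieldBar N) (modularFunctionFieldBar (N * ℓ)) :=
    finiteAlong_alpha N ℓ
  exact pushforwardNormFormula_of_isFF (isFF_FK N) (isFF_FK (N * ℓ))

/-- HK3 -/
theorem heckeInputsAlong : HeckeInputsAlong Kb N ℓ :=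
  ⟨heckeAlphaBarIntegral N ℓ, heckeBetaBarIntegral N ℓ, hasPrincipalDivisors_bar (N * ℓ),
    finiteAlong_alpha N ℓ, fundamentalIdentityAlong_beta N ℓ, normFormulaAlong_alpha N ℓ⟩

end Fermat.Agent.S37lib
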