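import Fermat.Agent.S37.AsmGal
import Fermat.Prelude.Def_HeckeGalois_EichlerShimura

/-!
# S37 library, part (ASM): the abstract quotient construction

`J` an abelian group with commuting actions of `HeckeAlg` and of `G_ℚ`; `φ` a Frobenius element for
`A`.  If an additive subgroup `J1` contains all `i • x - x` (`i` in the inertia group) and all
`φ² x - T_ℓ φ x + ℓ x`, and meets the `p`-power torsion trivially, then a specialisation exists.
-/

set_option autoImplicit false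

open ModularCurve Fermat.Agent.ESlib

namespace Fermat.Agent.S37lib

section

variable {J : Type} [AddCommGroup J] [Module HeckeAlg J] [DistribMulAction (Qb ≃ₐ[ℚ] Qb) J]
  [SMulCommClass (Qb ≃ₐ[ℚ] Qb) HeckeAlg J]

/-- the generators of the kernel -/
def kerGens (J : Type) [AddCommGroup J] [Module HeckeAlg J] [DistribMulAction (Qb ≃ₐ[ℚ] Qb) J]
    (A : ValuationSubring Qb) (ℓ : Nat.Primes) (φ : Qb ≃ₐ[ℚ] Qb) : Set J :=
  {y | ∃ i ∈ A.inertiaSubgroupIn ℚ, ∃ x : J, y = i • x - x} ∪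
    {y | ∃ x : J, y = φ • φ • x - heckeGen ℓ • (φ • x) + (ℓ : ℕ) • x}

theorem smul_mem_kerGens {A : ValuationSubring Qb} {ℓ : Nat.Primes} {φ : Qb ≃ₐ[ℚ] Qb}
    (T : HeckeAlg) {y : J} (hy : y ∈ kerGens J A ℓ φ) : T • y ∈ kerGens J A ℓ φ := by
  haveI : SMulCommClass HeckeAlg (Qb ≃ₐ[ℚ] Qb) J := SMulCommClass.symm _ _ _
  rcases hy with ⟨i, hi, x, rfl⟩ | ⟨x, rfl⟩
  · exact Or.inl ⟨i, hi, T • x, by rw [smul_sub, smul_comm]⟩
  · refine Or.inr ⟨T • x, ?_⟩
    rw [smul_add, smul_sub, smul_comm T φ, smul_comm T φ, smul_comm T (heckeGen ℓ),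
      smul_comm T φ, smul_comm T (ℓ : ℕ)]

theorem galois_smul_mem_kerGens {A : ValuationSubring Qb} {ℓ : Nat.Primes} {φ : Qb ≃ₐ[ℚ] Qb}
    (hφ : φ ∈ A.decompositionSubgroup ℚ) {y : J} (hy : y ∈ kerGens J A ℓ φ) :
    φ • y ∈ kerGens J A ℓ φ := by
  rcases hy with ⟨i, hi, x, rfl⟩ | ⟨x, rfl⟩
  · refine Or.inl ⟨φ * i * φ⁻¹, inertia_conj hφ hi, φ • x, ?_⟩
    rw [smul_sub, mul_smul, mul_smul, inv_smul_smul]
  · refine Or.inr ⟨φ • x, ?_⟩
    rw [smul_add, smul_sub, smul_comm φ (heckeGen ℓ), smul_comm φ (ℓ : ℕ)]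

/-- the kernel of the specialisation map -/
def kerSub (J : Type) [AddCommGroup J] [Module HeckeAlg J] [DistribMulAction (Qb ≃ₐ[ℚ] Qb) J]
    [SMulCommClass (Qb ≃ₐ[ℚ] Qb) HeckeAlg J]
    (A : ValuationSubring Qb) (ℓ : Nat.Primes) (φ : Qb ≃ₐ[ℚ] Qb) : Submodule HeckeAlg J where
  carrier := AddSubgroup.closure (kerGens J A ℓ φ)
  add_mem' := fun ha hb => AddSubgroup.add_mem _ ha hb
  zero_mem' := AddSubgroup.zero_mem _
  smul_mem' := by
    intro T y hy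
    induction hy using AddSubgroup.closure_induction with
    | mem y hy => exact AddSubgroup.subset_closure (smul_mem_kerGens T hy)
    | zero => rw [smul_zero]; exact AddSubgroup.zero_mem _
    | add a b _ _ ha hb => rw [smul_add]; exact AddSubgroup.add_mem _ ha hb
    | neg a _ ha => rw [smul_neg]; exact AddSubgroup.neg_mem _ ha

theorem mem_kerSub_of_mem {A : ValuationSubring Qb} {ℓ : Nat.Primes} {φ : Qb ≃ₐ[ℚ] Qb} {y : J}
    (hy : y ∈ kerGens J A ℓ φ) : y ∈ kerSub J A ℓ φ := AddSubgroup.subset_closure hy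

theorem kerSub_le {A : ValuationSubring Qb} {ℓ : Nat.Primes} {φ : Qb ≃ₐ[ℚ] Qb}
    (J1 : AddSubgroup J) (h : kerGens J A ℓ φ ⊆ J1) {y : J} (hy : y ∈ kerSub J A ℓ φ) : y ∈ J1 :=
  (AddSubgroup.closure_le J1).2 h hy

theorem galois_smul_mem_kerSub {A : ValuationSubring Qb} {ℓ : Nat.Primes} {φ : Qb ≃ₐ[ℚ] Qb}
    (hφ : φ ∈ A.decompositionSubgroup ℚ) {y : J} (hy : y ∈ kerSub J A ℓ φ) :
    φ • y ∈ kerSub J A ℓ φ := by
  have hy' : y ∈ AddSubgroup.closure (kerGens J A ℓ φ) := hy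
  clear hy
  show φ • y ∈ AddSubgroup.closure (kerGens J A ℓ φ)
  induction hy' using AddSubgroup.closure_induction with
  | mem y hy => exact AddSubgroup.subset_closure (galois_smul_mem_kerGens hφ hy)
  | zero => rw [smul_zero]; exact AddSubgroup.zero_mem _
  | add a b _ _ ha hb => rw [smul_add]; exact AddSubgroup.add_mem _ ha hb
  | neg a _ ha => rw [smul_neg]; exact AddSubgroup.neg_mem _ ha

/-- **The abstract construction.** -/
theorem exists_specialization (p : ℕ) {ℓ : ℕ} (hℓ : ℓ.Prime) {A : ValuationSubring Qb}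
    {φ : Qb ≃ₐ[ℚ] Qb} (hφ : A.IsFrobeniusAt φ ℓ) (J1 : AddSubgroup J)
    (hb : ∀ i ∈ A.inertiaSubgroupIn ℚ, ∀ x : J, i • x - x ∈ J1)
    (hc : ∀ x : J, φ • φ • x - heckeGen ⟨ℓ, hℓ⟩ • (φ • x) + ℓ • x ∈ J1)
    (ha : ∀ x ∈ J1, (∃ n : ℕ, p ^ n • x = 0) → x = 0) :
    ∃ (J' : Type) (_ : AddCommGroup J') (_ : Module HeckeAlg J') (sp : J →+ J')
      (F : J' →+ J'),
      IsSpecialization (K := ℚ) p J J' A ℓ sp F ∧ SpecialFibreRelation J' ℓ hℓ F := by
  set KK := kerSub J A ⟨ℓ, hℓ⟩ φ with hKK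
  have hdec := hφ.mem_decompositionSubgroup
  let φL : J →ₗ[HeckeAlg] J := DistribSMul.toLinearMap HeckeAlg J φ
  have hφL : ∀ x, φL x = φ • x := fun _ => rfl
  have hstab : KK ≤ KK.comap φL := fun y hy => galois_smul_mem_kerSub hdec hy
  refine ⟨J ⧸ KK, inferInstance, inferInstance, KK.mkQ.toAddMonoidHom,
    (KK.mapQ KK φL hstab).toAddMonoidHom, ⟨?_, ?_, ?_, ?_⟩, ?_⟩
  · intro T x
    exact map_smul KK.mkQ T x
  · intro σ hσ x
    refine (Submodule.Quotient.eq KK).2 ?_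
    exact mem_kerSub_of_mem (Or.inl ⟨σ, hσ, x, rfl⟩)
  · intro σ hσ x
    show Submodule.Quotient.mk (σ • x) = Submodule.Quotient.mk (φ • x)
    refine (Submodule.Quotient.eq KK).2 ?_
    have hi := frobenius_inv_mul_mem hσ hφ
    have h1 : (φ⁻¹ * σ) • x - x ∈ KK := mem_kerSub_of_mem (Or.inl ⟨_, hi, x, rfl⟩)
    have h2 := galois_smul_mem_kerSub hdec h1
    rwa [smul_sub, mul_smul, smul_inv_smul] at h2
  · intro x hx h0
    have h1 : x ∈ KK := (Submodule.Quotient.mk_eq_zero KK).1 h0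
    refine ha x (kerSub_le J1 ?_ h1) hx
    rintro y (⟨i, hi, x, rfl⟩ | ⟨x, rfl⟩)
    · exact hb i hi x
    · exact hc x
  · intro Y
    obtain ⟨x, rfl⟩ := Submodule.Quotient.mk_surjective _ Y
    show Submodule.Quotient.mk (φ • φ • x) - heckeGen ⟨ℓ, hℓ⟩ • Submodule.Quotient.mk (φ • x)
      + ℓ • Submodule.Quotient.mk x = (0 : J ⧸ KK)
    rw [← Submodule.Quotient.mk_smul, ← Submodule.Quotient.mk_sub]
    have e : ℓ • (Submodule.Quotient.mk x : J ⧸ KK) = Submodule.Quotient.mk (ℓ • x) := rfl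
    rw [e, ← Submodule.Quotient.mk_add, Submodule.Quotient.mk_eq_zero]
    exact mem_kerSub_of_mem (Or.inr ⟨x, rfl⟩)

end

end Fermat.Agent.S37lib
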