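import Fermat.Agent.S37.AsmJ1
import Fermat.Agent.S37.AsmQuot
import Fermat.Agent.ES.M.KilHaupt

/-!
# S37 library, part (ASM): `SpecializationExists` for `J₀(N)` from (DV), (HK), (Z0)
-/

set_option autoImplicit false

open ModularCurve AlgebraicCurve Fermat.Agent.S28lib Fermat.Agent.ESlib

namespace Fermat.Agent.S37lib

/-- KIL for all exponents prime to `ℓ` -/
theorem kilAt_of_not_dvd (N : ℕ) [NeZero N] {ℓ : ℕ} (hℓ : ℓ.Prime) (hℓN : ¬ ℓ ∣ N)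
    {A : ValuationSubring Qb} (hA : A.LiesOverPrime ℓ) (m : ℕ) (hm : ¬ ℓ ∣ m) : KILAt N A m := by
  have : Fact ℓ.Prime := ⟨hℓ⟩
  induction m using Nat.recOnMul with
  | zero => exact absurd (dvd_zero ℓ) hm
  | one => exact KILAt.one N A
  | prime q hq =>
    exact kilAt_of_kilHaupt hℓ (kilHaupt hℓ A hA) N hℓN q hq (fun h => hm (h ▸ dvd_rfl))
  | mul a b iha ihb =>
    have ha : ¬ ℓ ∣ a := fun h => hm (Dvd.dvd.mul_right h b)
    have hb : ¬ ℓ ∣ b := fun h => hm (Dvd.dvd.mul_left h a)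
    have ha0 : 0 < a := Nat.pos_of_ne_zero (by rintro rfl; exact ha (dvd_zero ℓ))
    exact KILAt.mul hℓN hA ha0 (iha ha) (ihb hb)

/-- the statement (HK) at the prime `ℓ ∤ N` -/
def HKAt (N : ℕ) [NeZero N] {ℓ : ℕ} (hℓ : ℓ.Prime) (hℓN : ¬ ℓ ∣ N) : Prop :=
  haveI : NeZero ℓ := ⟨hℓ.ne_zero⟩
  ∀ {ζ : Qbˣ} (hζ : IsPrimitiveRoot ζ ℓ),
    ∃ Td : Divisor Qb (modularFunctionFieldBar N) →+ Divisor Qb (modularFunctionFieldBar N),
      ∃ h0 : ∀ D ∈ Divisor.degZero (K := Qb) (F := modularFunctionFieldBar N),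
          Td D ∈ Divisor.degZero (K := Qb) (F := modularFunctionFieldBar N),
      (∀ D : Divisor.degZero (K := Qb) (F := modularFunctionFieldBar N),
        heckeOperatorBar N ⟨ℓ, hℓ⟩ (Pic0.mk D) = Pic0.mk ⟨Td D, h0 D D.2⟩) ∧
      (∀ h : modularFunctionFieldBar N, h ≠ 0 →
        ∀ D : Divisor Qb (modularFunctionFieldBar N), (∀ v, D v = v.ord h) →
        ∀ v, Td D v = v.ord (⟨heckeTS ℓ ζ (h : LaurentSeries Qb),
          heckeTS_mem_bar hℓ hℓN hζ _ h.2⟩ : modularFunctionFieldBar N))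

/-- **S37 from (DV), (HK), (Z0).** -/
theorem specializationExists_of (N p : ℕ) [NeZero N] (hcomm : HeckeOperatorsCommuteBar N)
    (hDV : DVBar N) (hPD : HasPrincipalDivisors Qb (modularFunctionFieldBar N))
    (hHK : ∀ {ℓ : ℕ} (hℓ : ℓ.Prime) (hℓN : ¬ ℓ ∣ N), HKAt N hℓ hℓN)
    (hZ : ∀ {ℓ : ℕ} (hℓ : ℓ.Prime) (hℓN : ¬ ℓ ∣ N) (r : ℕ), 0 < r → Z0At N hℓ hℓN r) :
    letI := heckeModuleBar N
    ∀ (_ : SMulCommClass (AlgebraicClosure ℚ ≃ₐ[ℚ] AlgebraicClosure ℚ) HeckeAlg (JZero N)),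
      SpecializationExists (K := ℚ) (L := AlgebraicClosure ℚ) N p (JZero N) := by
  letI := heckeModuleBar N
  intro _ ℓ hℓ hℓNp A hA
  have hℓN : ¬ ℓ ∣ N := fun h => hℓNp (Dvd.dvd.mul_right h p)
  have hℓp : ¬ ℓ ∣ p := fun h => hℓNp (Dvd.dvd.mul_left h N)
  have hp : 0 < p := Nat.pos_of_ne_zero (by rintro rfl; exact hℓp (dvd_zero ℓ))
  haveI : NeZero ℓ := ⟨hℓ.ne_zero⟩
  obtain ⟨φ, hφ⟩ := exists_frobenius hℓ hA
  obtain ⟨ζ, hζ⟩ := ThetaSys.exists_primitiveRoot_Qb ℓ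
  obtain ⟨Td, h0, hmk, hTd⟩ := hHK hℓ hℓN hζ
  have hK := kilAt_of_not_dvd N hℓ hℓN hA p hℓp
  refine exists_specialization p hℓ hφ (J1 N A p) ?_ ?_ ?_
  · intro i hi x
    exact inertia_sub_mem_J1 hp hℓ hℓN hA hDV hi x
  · intro x
    rw [heckeModuleBar_heckeGen_smul hcomm]
    exact frobenius_rel_mem_J1 hp hℓ hℓN hA hDV hPD hζ Td h0 hmk hTd hφ x
  · rintro x hx ⟨n, hn⟩
    exact eq_zero_of_mem_J1 hp hℓ hℓN hA hK hφ (hZ hℓ hℓN) hx hn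

end Fermat.Agent.S37lib
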