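import Fermat.Agent.S37.HKNormT

/-!
# S37 library, part (HK), row HK4: the interface used by (ASM)

For a prime `ℓ ∤ N` the operator `heckeOperatorBar N ℓ` on `JZero N` is induced by an additive
operator `Td` on divisors, which preserves degree zero and sends `div h` to
`div (heckeTS ℓ ζ h)`.
-/

set_option autoImplicit false

open AlgebraicCurve ModularCurve Fermat.Agent.S24RH Fermat.Agent.S24lib Fermat.Agent.ESlib

namespace Fermat.Agent.S37lib

variable {N ℓ : ℕ} [NeZero N] [NeZero ℓ]

/-- pull-back of a principal divisor along a homomorphism -/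
theorem pullbackAlong_apply_eq_ord {K F F' : Type*} [Field K] [Field F] [Field F'] [Algebra K F]
    [Algebra K F'] [HasPrincipalDivisors K F'] (φ : F →ₐ[K] F') (hφ : φ.toRingHom.IsIntegral)
    {f : F} {D : Divisor K F} (hD : ∀ v : Place K F, D v = v.ord f) (w : Place K F') :
    Divisor.pullbackAlong φ hφ D w = w.ord (φ f) := by
  let _ := algebraAlong φ
  have := isScalarTower_along φ
  have := isIntegral_along φ hφ
  exact Divisor.pullback_apply_eq_ord hD w

/-- push-forward of a principal divisor along a homomorphism -/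
theorem pushforwardAlong_apply_eq_ord {K F F' : Type*} [Field K] [Field F] [Field F'] [Algebra K F]
    [Algebra K F'] (φ : F →ₐ[K] F') (hφ : φ.toRingHom.IsIntegral) (hfin : FiniteAlong K φ)
    (hN : NormFormulaAlong K φ hfin)
    {f : F'} (hf : f ≠ 0) {D : Divisor K F'} (hD : ∀ w : Place K F', D w = w.ord f)
    (v : Place K F) :
    Divisor.pushforwardAlong φ hφ D v =
      v.ord (letI := algebraAlong φ; Algebra.norm F f) := by
  let _ := algebraAlong φ
  have := isScalarTower_along φ
  have := isIntegral_along φ hφ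
  have : Module.Finite F F' := hfin
  exact hN f hf D hD v

/-- HK4: **the (HK) interface**. -/
theorem exists_heckeDiv (hℓ : ℓ.Prime) (hℓN : ¬ ℓ ∣ N) {ζ : Kbˣ} (hζ : IsPrimitiveRoot ζ ℓ) :
    ∃ Td : Divisor Kb (modularFunctionFieldBar N) →+ Divisor Kb (modularFunctionFieldBar N),
      ∃ h0 : ∀ D ∈ Divisor.degZero (K := Kb) (F := modularFunctionFieldBar N),
          Td D ∈ Divisor.degZero (K := Kb) (F := modularFunctionFieldBar N),
      (∀ D : Divisor.degZero (K := Kb) (F := modularFunctionFieldBar N),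
        heckeOperatorBar N ⟨ℓ, hℓ⟩ (Pic0.mk D) = Pic0.mk ⟨Td D, h0 D D.2⟩) ∧
      (∀ h : modularFunctionFieldBar N, h ≠ 0 →
        ∀ D : Divisor Kb (modularFunctionFieldBar N), (∀ v, D v = v.ord h) →
        ∀ v, Td D v = v.ord (⟨heckeTS ℓ ζ (h : LaurentSeries Kb),
          heckeTS_mem_bar hℓ hℓN hζ _ h.2⟩ : modularFunctionFieldBar N)) := by
  have := hasPrincipalDivisors_bar (N * ℓ)
  refine ⟨heckeDivBar (heckeAlphaBarIntegral N ℓ) (heckeBetaBarIntegral N ℓ),
    fun D hD => Divisor.correspondence_mem_degZero _ _ _ _ (fundamentalIdentityAlong_beta N ℓ) hD,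
    ?_, ?_⟩
  · intro D
    have h1 := heckeOperatorAlong_eq (heckeAlphaBarIntegral N ℓ) (heckeBetaBarIntegral N ℓ)
      (fundamentalIdentityAlong_beta N ℓ) (finiteAlong_alpha N ℓ) (normFormulaAlong_alpha N ℓ)
    exact (heckeOperatorBar_apply N ⟨ℓ, hℓ⟩ (Pic0.mk D)).trans
      (congrArg (fun f => f (Pic0.mk D)) h1)
  · intro h hh D hD v
    have h1 : ∀ w, Divisor.pullbackAlong (heckeBetaBar Kb N ℓ) (heckeBetaBarIntegral N ℓ) D w =
        w.ord (heckeBetaBar Kb N ℓ h) :=
      pullbackAlong_apply_eq_ord _ _ hD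
    have h2 : heckeBetaBar Kb N ℓ h ≠ 0 := by
      rw [Ne, map_eq_zero]; exact hh
    have h3 := pushforwardAlong_apply_eq_ord (heckeAlphaBar Kb N ℓ) (heckeAlphaBarIntegral N ℓ)
      (finiteAlong_alpha N ℓ) (normFormulaAlong_alpha N ℓ) h2 h1 v
    rw [norm_alpha_beta hℓ hℓN hζ h] at h3
    exact h3

end Fermat.Agent.S37lib
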