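import Mathlib
import Fermat.Prelude.Def_CuspForm_HeckeAlgebra

/-!
# T-S37, (Z0-A): the algebra behind `exists_isogeny`

* (i) `exists_aeval_mul_eq_int`: a non-zero-divisor `x` of a commutative ring which is a finite
  `ℤ`-module divides a nonzero integer, with a cofactor which is an integer polynomial in `x`.
* (ii) `aeval_injective_of_eigenvalue`: `R(T)` is injective as soon as `R` does not vanish at
  the eigenvalues of `T`.
* (iii) `mem_nonZeroDivisors_heckeAlgebra`: an element of the Hecke algebra which is injective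
  on cusp forms is a non-zero-divisor.
* `exists_aeval_mul_eq_int_heckeAlgebra`: the combination of the three.
-/

set_option autoImplicit false

open Polynomial

namespace Fermat.Agent.S37lib

/-- auxiliary form of (i): any nonzero integer polynomial killing the non-zero-divisor `x`
produces the relation. -/
theorem exists_aeval_mul_eq_int_of_aeval_eq_zero {TT : Type*} [CommRing TT] {x : TT}
    (hx : x ∈ nonZeroDivisors TT) :
    ∀ (n : ℕ) (P : ℤ[X]), P.natDegree ≤ n → P ≠ 0 → aeval x P = 0 →
      ∃ (G : ℤ[X]) (δ : ℤ), δ ≠ 0 ∧ aeval x G * x = (δ : TT) := by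
  intro n
  induction n with
  | zero =>
    intro P hP hP0 hPx
    rw [Nat.le_zero] at hP
    rw [Polynomial.eq_C_of_natDegree_eq_zero hP] at hPx hP0
    refine ⟨0, P.coeff 0, fun h => hP0 (by rw [h, map_zero]), ?_⟩
    rw [aeval_C] at hPx
    rw [map_zero, zero_mul]
    simpa using hPx.symm
  | succ n ih =>
    intro P hP hP0 hPx
    have hdec : P.divX * X + C (P.coeff 0) = P := Polynomial.divX_mul_X_add P
    by_cases h0 : P.coeff 0 = 0
    · rw [h0, map_zero, add_zero] at hdec
      have hd0 : P.divX ≠ 0 := by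
        intro h
        apply hP0
        rw [← hdec, h, zero_mul]
      have hdx : aeval x P.divX = 0 := by
        rw [← hdec, map_mul, aeval_X] at hPx
        exact (mem_nonZeroDivisors_iff_right.1 hx) _ hPx
      refine ih P.divX ?_ hd0 hdx
      rw [Polynomial.natDegree_divX_eq_natDegree_tsub_one]
      omega
    · refine ⟨-P.divX, P.coeff 0, h0, ?_⟩
      rw [← hdec, map_add, map_mul, aeval_X, aeval_C] at hPx
      rw [map_neg, neg_mul]
      have h1 : algebraMap ℤ TT (P.coeff 0) = ((P.coeff 0 : ℤ) : TT) := by simp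
      rw [h1] at hPx
      linear_combination -hPx

/-- (Z0-A)(i). -/
theorem exists_aeval_mul_eq_int {TT : Type*} [CommRing TT] [Module.Finite ℤ TT] {x : TT}
    (hx : x ∈ nonZeroDivisors TT) :
    ∃ (G : ℤ[X]) (δ : ℤ), δ ≠ 0 ∧ aeval x G * x = (δ : TT) := by
  obtain ⟨P, hPm, hPx⟩ := Algebra.IsIntegral.isIntegral (R := ℤ) x
  refine exists_aeval_mul_eq_int_of_aeval_eq_zero hx P.natDegree P le_rfl hPm.ne_zero ?_
  rwa [← Polynomial.aeval_def] at hPx

/-- (Z0-A)(ii). -/
theorem aeval_injective_of_eigenvalue {V : Type*} [AddCommGroup V] [Module ℂ V]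
    [FiniteDimensional ℂ V] (T : Module.End ℂ V) (R : ℂ[X])
    (h : ∀ a : ℂ, T.HasEigenvalue a → R.eval a ≠ 0) : Function.Injective (aeval T R) := by
  rw [← LinearMap.ker_eq_bot]
  by_contra hne
  set K : Submodule ℂ V := LinearMap.ker (aeval T R) with hK
  have hstab : ∀ v ∈ K, T v ∈ K := by
    intro v hv
    rw [hK, LinearMap.mem_ker] at hv ⊢
    have hc : Commute (aeval T R) T :=
      (Algebra.commute_of_mem_adjoin_self (R := ℂ) (a := T)
        (by rw [Algebra.adjoin_singleton_eq_range_aeval]; exact ⟨R, rfl⟩)).symm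
    have := congrArg (fun f : Module.End ℂ V => f v) hc.eq
    simp only [Module.End.mul_apply] at this
    rw [this, hv, map_zero]
  have : Nontrivial K := Submodule.nontrivial_iff_ne_bot.2 hne
  obtain ⟨a, ha⟩ := Module.End.exists_eigenvalue (T.restrict hstab)
  obtain ⟨w, hw⟩ := ha.exists_hasEigenvector
  have hw1 : T (w : V) = a • (w : V) := by
    have := congrArg Subtype.val hw.apply_eq_smul
    simpa using this
  have hw0 : (w : V) ≠ 0 := fun h0 => hw.2 (Subtype.ext h0)
  have hev : T.HasEigenvector a (w : V) :=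
    ⟨Module.End.mem_eigenspace_iff.2 hw1, hw0⟩
  have h1 : aeval T R (w : V) = R.eval a • (w : V) := Module.End.aeval_apply_of_hasEigenvector hev
  have h2 : aeval T R (w : V) = 0 := LinearMap.mem_ker.1 w.2
  rw [h2] at h1
  rcases smul_eq_zero.1 h1.symm with h3 | h3
  · exact h a (Module.End.hasEigenvalue_of_hasEigenvector hev) h3
  · exact hw0 h3

/-- (Z0-A)(iii). -/
theorem mem_nonZeroDivisors_heckeAlgebra {N : ℕ} [NeZero N] {k : ℤ} {S : Set ℕ}
    (t : CuspForm.heckeAlgebra N k S)
    (ht : Function.Injective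
      (t : Module.End ℂ (CuspForm (CongruenceSubgroup.Gamma0 N) k))) :
    t ∈ nonZeroDivisors (CuspForm.heckeAlgebra N k S) := by
  rw [mem_nonZeroDivisors_iff_right]
  intro z hz
  rw [mul_comm] at hz
  apply Subtype.ext
  apply LinearMap.ext
  intro f
  apply ht
  have := congrArg (fun s : CuspForm.heckeAlgebra N k S =>
    (s : Module.End ℂ (CuspForm (CongruenceSubgroup.Gamma0 N) k)) f) hz
  simpa using this

/-- the coercion of the Hecke algebra to endomorphisms commutes with `aeval`. -/
theorem coe_aeval_heckeAlgebra {N : ℕ} [NeZero N] {k : ℤ} {S : Set ℕ}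
    (t : CuspForm.heckeAlgebra N k S) (R : ℤ[X]) :
    ((aeval t R : CuspForm.heckeAlgebra N k S) :
      Module.End ℂ (CuspForm (CongruenceSubgroup.Gamma0 N) k)) =
      aeval (t : Module.End ℂ (CuspForm (CongruenceSubgroup.Gamma0 N) k))
        (R.map (algebraMap ℤ ℂ)) := by
  rw [Polynomial.aeval_map_algebraMap]
  exact (Polynomial.aeval_algHom_apply (CuspForm.heckeAlgebra N k S).val t R).symm

/-- (Z0-A), combined: if the integer polynomial `R` does not vanish at the eigenvalues of
`t` on cusp forms then `R(t)` divides a nonzero integer in the Hecke algebra, the cofactor being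
an integer polynomial in `t`. -/
theorem exists_aeval_mul_eq_int_heckeAlgebra {N : ℕ} [NeZero N] {k : ℤ} {S : Set ℕ}
    [Module.Finite ℤ (CuspForm.heckeAlgebra N k S)]
    [FiniteDimensional ℂ (CuspForm (CongruenceSubgroup.Gamma0 N) k)]
    (t : CuspForm.heckeAlgebra N k S) (R : ℤ[X])
    (h : ∀ a : ℂ,
      (t : Module.End ℂ (CuspForm (CongruenceSubgroup.Gamma0 N) k)).HasEigenvalue a →
        aeval a R ≠ 0) :
    ∃ (G : ℤ[X]) (δ : ℤ), δ ≠ 0 ∧
      aeval t (G * R) = (δ : CuspForm.heckeAlgebra N k S) := by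
  have hinj : Function.Injective
      ((aeval t R : CuspForm.heckeAlgebra N k S) :
        Module.End ℂ (CuspForm (CongruenceSubgroup.Gamma0 N) k)) := by
    rw [coe_aeval_heckeAlgebra]
    apply aeval_injective_of_eigenvalue
    intro a ha
    have := h a ha
    rwa [Polynomial.aeval_def, ← Polynomial.eval_map] at this
  obtain ⟨G, δ, hδ, hG⟩ :=
    exists_aeval_mul_eq_int (mem_nonZeroDivisors_heckeAlgebra _ hinj)
  refine ⟨G.comp R, δ, hδ, ?_⟩
  rw [map_mul, Polynomial.aeval_comp, hG]

end Fermat.Agent.S37lib
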