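import Mathlib

/-!
# T-S37, (Z0-P): the polynomials `R_r(X) = ℓ ^ r + 1 - L_r(X)`

`L_r` is the Lucas polynomial with `L_r(y + y') = y ^ r + y' ^ r` when `y * y' = ℓ`.  Hence
`R_r(t) = (y ^ r - 1) * ((t - y) ^ r - 1)` as soon as `y ^ 2 - t * y + ℓ = 0`.
-/

set_option autoImplicit false

open Polynomial

namespace Fermat.Agent.S37lib

noncomputable section

/-- the Lucas polynomials of `Y ^ 2 - X * Y + l` -/
def lucasP (l : ℤ) : ℕ → ℤ[X]
  | 0 => 2
  | 1 => X
  | (n + 2) => X * lucasP l (n + 1) - C l * lucasP l n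

/-- `R_r = l ^ r + 1 - L_r` -/
def Rr (l : ℤ) (r : ℕ) : ℤ[X] := C (l ^ r + 1) - lucasP l r

@[simp] theorem lucasP_zero (l : ℤ) : lucasP l 0 = 2 := rfl

@[simp] theorem lucasP_one (l : ℤ) : lucasP l 1 = X := rfl

theorem lucasP_succ_succ (l : ℤ) (n : ℕ) :
    lucasP l (n + 2) = X * lucasP l (n + 1) - C l * lucasP l n := rfl

/-- without any relation: `L_n(t) ≡ y ^ n + (t - y) ^ n` modulo `y ^ 2 - t * y + l` -/
theorem exists_aeval_lucasP {S : Type*} [CommRing S] (l : ℤ) (n : ℕ) (t y : S) :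
    ∃ c : S, aeval t (lucasP l n) = y ^ n + (t - y) ^ n + c * (y ^ 2 - t * y + (l : S)) := by
  induction n using Nat.twoStepInduction with
  | zero => exact ⟨0, by rw [lucasP_zero, map_ofNat]; norm_num⟩
  | one => exact ⟨0, by simp⟩
  | more n h1 h2 =>
    obtain ⟨c1, h1⟩ := h1
    obtain ⟨c2, h2⟩ := h2
    refine ⟨t * c2 - l * c1 - (y ^ n + (t - y) ^ n), ?_⟩
    rw [lucasP_succ_succ, map_sub, map_mul, map_mul, aeval_X, aeval_C, h1, h2]
    simp only [eq_intCast]
    ring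

/-- `(y * (t - y)) ^ r ≡ l ^ r` modulo `y ^ 2 - t * y + l` -/
theorem exists_mul_pow_eq {S : Type*} [CommRing S] (l : ℤ) (r : ℕ) (t y : S) :
    ∃ c : S, y ^ r * (t - y) ^ r = (l : S) ^ r + c * (y ^ 2 - t * y + (l : S)) := by
  have h : (l : S) - y * (t - y) ∣ (l : S) ^ r - (y * (t - y)) ^ r := sub_dvd_pow_sub_pow _ _ r
  obtain ⟨c, hc⟩ := h
  refine ⟨-c, ?_⟩
  rw [← mul_pow]
  have : (y * (t - y)) ^ r = (l : S) ^ r - ((l : S) - y * (t - y)) * c := by rw [← hc]; ring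
  rw [this]
  ring

/-- without any relation: `R_r(t) ≡ (y ^ r - 1) * ((t - y) ^ r - 1)` modulo `y ^ 2 - t * y + l` -/
theorem exists_aeval_Rr {S : Type*} [CommRing S] (l : ℤ) (r : ℕ) (t y : S) :
    ∃ c : S, aeval t (Rr l r) =
      ((t - y) ^ r - 1) * (y ^ r - 1) + c * (y ^ 2 - t * y + (l : S)) := by
  obtain ⟨c1, h1⟩ := exists_aeval_lucasP l r t y
  obtain ⟨c2, h2⟩ := exists_mul_pow_eq l r t y
  refine ⟨-c1 - c2, ?_⟩
  have h3 : (l : S) ^ r = y ^ r * (t - y) ^ r - c2 * (y ^ 2 - t * y + (l : S)) := by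
    rw [h2]; ring
  rw [Rr, map_sub, aeval_C, h1]
  simp only [eq_intCast, Int.cast_add, Int.cast_pow, Int.cast_one]
  rw [h3]
  ring

theorem aeval_lucasP {S : Type*} [CommRing S] (l : ℤ) (n : ℕ) (t y : S)
    (h : y ^ 2 - t * y + (l : S) = 0) : aeval t (lucasP l n) = y ^ n + (t - y) ^ n := by
  obtain ⟨c, hc⟩ := exists_aeval_lucasP l n t y
  rw [hc, h, mul_zero, add_zero]

/-- **(Z0-P)** -/
theorem aeval_Rr {S : Type*} [CommRing S] (l : ℤ) (r : ℕ) (t y : S)
    (h : y ^ 2 - t * y + (l : S) = 0) :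
    aeval t (Rr l r) = (y ^ r - 1) * ((t - y) ^ r - 1) := by
  obtain ⟨c, hc⟩ := exists_aeval_Rr l r t y
  rw [hc, h, mul_zero, add_zero, mul_comm]

/-- **(Z0-P')**, for a module over a commutative ring -/
theorem aeval_Rr_smul_eq_zero {S M : Type*} [CommRing S] [AddCommGroup M] [Module S M] (l : ℤ)
    (r : ℕ) (t y : S) (u : M) (h1 : (y ^ 2 - t * y + (l : S)) • u = 0)
    (h2 : (y ^ r - 1) • u = 0) : aeval t (Rr l r) • u = 0 := by
  obtain ⟨c, hc⟩ := exists_aeval_Rr l r t y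
  rw [hc, add_smul, mul_smul, mul_smul, h1, h2, smul_zero, smul_zero, add_zero]

/-- **(Z0-P')**, for two commuting endomorphisms of an abelian group -/
theorem aeval_Rr_apply_eq_zero {M : Type*} [AddCommGroup M] (l : ℤ) (r : ℕ)
    (t y : Module.End ℤ M) (hty : Commute t y) (u : M)
    (h1 : y (y u) - t (y u) + l • u = 0) (h2 : (y ^ r) u = u) :
    aeval t (Rr l r) u = 0 := by
  -- the commutative ring generated by `t` and `y`
  let s : Set (Module.End ℤ M) := {t, y}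
  have hs : ∀ a ∈ s, ∀ b ∈ s, a * b = b * a := by
    rintro a (rfl | rfl) b (rfl | rfl)
    · rfl
    · exact hty
    · exact hty.symm
    · rfl
  letI : CommRing (Algebra.adjoin ℤ s) := Algebra.adjoinCommRingOfComm ℤ hs
  let t' : Algebra.adjoin ℤ s := ⟨t, Algebra.subset_adjoin (by simp [s])⟩
  let y' : Algebra.adjoin ℤ s := ⟨y, Algebra.subset_adjoin (by simp [s])⟩
  obtain ⟨c, hc⟩ := exists_aeval_Rr l r t' y'
  have hc' := congrArg (Subalgebra.val (Algebra.adjoin ℤ s)) hc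
  rw [← Polynomial.aeval_algHom_apply] at hc'
  simp only [map_add, map_mul, map_sub, map_pow, map_one, map_intCast] at hc'
  have ht' : (Algebra.adjoin ℤ s).val t' = t := rfl
  have hy' : (Algebra.adjoin ℤ s).val y' = y := rfl
  rw [ht', hy'] at hc'
  rw [hc']
  have e1 : (y ^ r - 1) u = 0 := by
    rw [LinearMap.sub_apply, h2, Module.End.one_apply, sub_self]
  have e2 : (y ^ 2 - t * y + (l : Module.End ℤ M)) u = 0 := by
    rw [← h1]
    simp [pow_two, Module.End.mul_apply, Module.End.intCast_apply]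
  rw [LinearMap.add_apply, Module.End.mul_apply, Module.End.mul_apply, e1, e2, map_zero, map_zero,
    add_zero]

/-- a root of unity `z` with `z ^ 2 - a * z + l = 0`, `a` real, `l ≠ 1`, forces `|a| = l + 1` -/
theorem norm_eq_of_root_of_unity {l : ℕ} (hl : 1 < l) {r : ℕ} (hr : 0 < r) {a z : ℂ}
    (ha : a.im = 0) (hz : z ^ r = 1) (h : z ^ 2 - a * z + (l : ℂ) = 0) : ‖a‖ = l + 1 := by
  have hn : ‖z‖ = 1 := Complex.norm_eq_one_of_pow_eq_one hz hr.ne'
  have hz0 : z ≠ 0 := by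
    rintro rfl
    simp at hn
  have hzz : z * (starRingEnd ℂ) z = 1 := by
    rw [Complex.mul_conj, Complex.normSq_eq_norm_sq, hn]; simp
  have ha' : a = z + l * (starRingEnd ℂ) z := by
    have h1 : a * z = (z + l * (starRingEnd ℂ) z) * z := by
      have : (z + l * (starRingEnd ℂ) z) * z = z ^ 2 + l * (z * (starRingEnd ℂ) z) := by ring
      rw [this, hzz]
      linear_combination -h
    exact mul_right_cancel₀ hz0 h1
  have him : z.im = 0 := by
    have h1 := congrArg Complex.im ha'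
    rw [ha] at h1
    simp only [Complex.add_im, Complex.mul_im, Complex.natCast_re, Complex.conj_im,
      Complex.natCast_im, Complex.conj_re, zero_mul, add_zero] at h1
    have h2 : (1 - (l : ℝ)) * z.im = 0 := by linarith
    have h3 : (1 - (l : ℝ)) ≠ 0 := by
      have : (1 : ℝ) < l := by exact_mod_cast hl
      linarith
    exact (mul_eq_zero.mp h2).resolve_left h3
  have hconj : (starRingEnd ℂ) z = z := Complex.conj_eq_iff_im.mpr him
  rw [hconj] at ha'
  have : a = ((l : ℂ) + 1) * z := by rw [ha']; ring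
  rw [this, norm_mul, hn, mul_one]
  have : ((l : ℂ) + 1) = ((l + 1 : ℕ) : ℂ) := by push_cast; ring
  rw [this, Complex.norm_natCast]
  push_cast; ring

/-- **(Z0-an)(3)**: `R_r(a) ≠ 0` for `a` real with `|a| < l + 1` -/
theorem aeval_Rr_ne_zero {l : ℕ} (hl : 1 < l) {r : ℕ} (hr : 0 < r) {a : ℂ} (ha : a.im = 0)
    (hlt : ‖a‖ < l + 1) : aeval a (Rr (l : ℤ) r) ≠ 0 := by
  obtain ⟨y, hy⟩ : ∃ y : ℂ, y ^ 2 - a * y + (l : ℂ) = 0 := by
    have hdeg : (X ^ 2 - C a * X + C (l : ℂ) : ℂ[X]).degree ≠ 0 := by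
      have : (X ^ 2 - C a * X + C (l : ℂ) : ℂ[X]) = C 1 * X ^ 2 + C (-a) * X + C (l : ℂ) := by
        simp; ring
      rw [this, degree_quadratic one_ne_zero]
      decide
    obtain ⟨y, hy⟩ := IsAlgClosed.exists_root _ hdeg
    exact ⟨y, by simpa [IsRoot] using hy⟩
  have hy' : y ^ 2 - a * y + (((l : ℤ) : ℂ)) = 0 := by simpa using hy
  rw [aeval_Rr (l : ℤ) r a y hy']
  intro h0
  rcases mul_eq_zero.mp h0 with h | h
  · exact hlt.ne (norm_eq_of_root_of_unity hl hr ha (sub_eq_zero.mp h) hy)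
  · refine hlt.ne (norm_eq_of_root_of_unity hl hr ha (sub_eq_zero.mp h) ?_)
    linear_combination hy

end

end Fermat.Agent.S37lib
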