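import Fermat.Agent.S37.Z0Bound
import Fermat.Agent.S37.Z0Poly
import Fermat.Agent.S37.Z0Alg
import Fermat.Agent.S22
import Fermat.Agent.S49H.Forms

/-!
# T-S37, (Z0): `R_r(T_ℓ)` is an isogeny

`R_r(X) = ℓ ^ r + 1 - L_r(X) = ∏_{ζ ^ r = 1} (ζ² - X ζ + ℓ)`.  In the Hecke algebra
`𝕋 = heckeAlgebra N 2 ∅` the element `R_r(T_ℓ)` divides a nonzero integer, with a cofactor which is
a polynomial in `T_ℓ`.
-/

set_option autoImplicit false
open CongruenceSubgroup CuspForm Polynomial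

namespace Fermat.Agent.S37lib

/-- no eigenvalue of `T_ℓ` on `S₂(Γ₀(N))` is a root of `R_r` -/
theorem aeval_Rr_ne_zero_of_hasEigenvalue (N : ℕ) [NeZero N] {l : ℕ} (hl : l.Prime)
    (hlN : ¬ l ∣ N) {r : ℕ} (hr : 0 < r) {a : ℂ}
    (ha : Module.End.HasEigenvalue
      (heckeTLin 2 hl hlN : Module.End ℂ (CuspForm (Gamma0 N) 2)) a) :
    aeval a (Rr (l : ℤ) r) ≠ 0 := by
  obtain ⟨f, hf⟩ := ha.exists_hasEigenvector
  have h1 : heckeTLin 2 hl hlN f = a • f := hf.apply_eq_smul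
  exact aeval_Rr_ne_zero hl.one_lt hr (eigenvalue_im_eq_zero hl hlN hf.2 h1)
    (eigenvalue_norm_lt hl hlN hf.2 h1)

/-- **(Z0).** -/
theorem exists_isogeny (N : ℕ) [NeZero N] {l : ℕ} (hl : l.Prime) (hlN : ¬ l ∣ N) {r : ℕ}
    (hr : 0 < r) :
    ∃ (G : ℤ[X]) (δ : ℤ), δ ≠ 0 ∧
      aeval (heckeAlgebra.T hl hlN (Set.notMem_empty l) : heckeAlgebra N 2 ∅) (G * Rr (l : ℤ) r) =
        (δ : heckeAlgebra N 2 ∅) := by
  have : Module.Finite ℤ (heckeAlgebra N 2 ∅) := Fermat.Agent.S22.result N 2 ∅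
  have : FiniteDimensional ℂ (CuspForm (Gamma0 N) 2) :=
    Fermat.Agent.S49.finiteDimensional_cuspForm N 2
  exact exists_aeval_mul_eq_int_heckeAlgebra _ _ fun a ha =>
    aeval_Rr_ne_zero_of_hasEigenvalue N hl hlN hr ha

end Fermat.Agent.S37lib
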