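import Mathlib

/-!
# S37 library: the abstract core (pure group theory)

`G` acts on the abelian group `J`; `Dg ⊇ I` are "decomposition" and "inertia" subgroups, `Frob` the
set of Frobenius elements.  If `J` is `p`-divisible, division points of `I`-fixed points are
`I`-fixed, the Eichler-Shimura relation holds on the `p`-power torsion, the `p`-power torsion fixed
by a power of Frobenius is bounded and all orbits are finite, then
`C = ⋃_H ⋂_k p ^ k J ^ (H ∩ Dg)` is a subgroup of `J`, stable under `Dg` and all equivariant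
endomorphisms, containing `(i - 1) x` and `(σ² - T σ + ℓ) x`, which meets the `p`-power torsion
trivially.
-/

set_option autoImplicit false

namespace Fermat.Agent.S37lib

theorem dvd_pow_self_of_dvd_pow {o p n : ℕ} (ho : o ≠ 0) (h : o ∣ p ^ n) : o ∣ p ^ o := by
  rcases Nat.eq_zero_or_pos p with rfl | hp
  · rw [zero_pow ho]; exact dvd_zero _
  rw [← Nat.factorization_le_iff_dvd ho (pow_ne_zero _ hp.ne')]
  intro r
  have h1 := (Nat.factorization_le_iff_dvd ho (pow_ne_zero _ hp.ne')).2 h r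
  rw [Nat.factorization_pow] at h1 ⊢
  simp only [Finsupp.smul_apply, smul_eq_mul] at h1 ⊢
  rcases Nat.eq_zero_or_pos (p.factorization r) with h0 | h0
  · rw [h0, mul_zero] at h1 ⊢
    exact h1
  · calc o.factorization r ≤ o := (Nat.factorization_lt r ho).le
      _ ≤ o * p.factorization r := Nat.le_mul_of_pos_right _ h0

section

variable {G J : Type} [Group G] [AddCommGroup J] [DistribMulAction G J]

/-- the subgroup `C` -/
def coreC (Dg : Subgroup G) (p : ℕ) : AddSubgroup J where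
  carrier := {x | ∃ H : Subgroup G, H.Normal ∧ H.FiniteIndex ∧
    ∀ k : ℕ, ∃ y : J, p ^ k • y = x ∧ ∀ g ∈ H, g ∈ Dg → g • y = y}
  zero_mem' := ⟨⊤, inferInstance, inferInstance, fun _ => ⟨0, smul_zero _, fun g _ _ => smul_zero g⟩⟩
  add_mem' := by
    rintro a b ⟨H₁, n₁, f₁, h₁⟩ ⟨H₂, n₂, f₂, h₂⟩
    refine ⟨H₁ ⊓ H₂, inferInstance, inferInstance, fun k => ?_⟩
    obtain ⟨y₁, e₁, i₁⟩ := h₁ k
    obtain ⟨y₂, e₂, i₂⟩ := h₂ k
    refine ⟨y₁ + y₂, by rw [smul_add, e₁, e₂], fun g hg hD => ?_⟩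
    rw [smul_add, i₁ g hg.1 hD, i₂ g hg.2 hD]
  neg_mem' := by
    rintro a ⟨H, n, f, h⟩
    refine ⟨H, n, f, fun k => ?_⟩
    obtain ⟨y, e, i⟩ := h k
    exact ⟨-y, by rw [smul_neg, e], fun g hg hD => by rw [smul_neg, i g hg hD]⟩

theorem mem_coreC {Dg : Subgroup G} {p : ℕ} {x : J} : x ∈ coreC (J := J) Dg p ↔
    ∃ H : Subgroup G, H.Normal ∧ H.FiniteIndex ∧
      ∀ k : ℕ, ∃ y : J, p ^ k • y = x ∧ ∀ g ∈ H, g ∈ Dg → g • y = y := Iff.rfl

theorem smul_mem_coreC {Dg : Subgroup G} {p : ℕ} {x : J} (hx : x ∈ coreC (J := J) Dg p) {g : G}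
    (hg : g ∈ Dg) : g • x ∈ coreC (J := J) Dg p := by
  obtain ⟨H, n, f, h⟩ := hx
  refine ⟨H, n, f, fun k => ?_⟩
  obtain ⟨y, e, i⟩ := h k
  refine ⟨g • y, by rw [← e, smul_comm], fun a ha hD => ?_⟩
  have h1 : g⁻¹ * a * g ∈ H := by
    have := n.conj_mem a ha g⁻¹
    simpa using this
  have h2 := i _ h1 (Dg.mul_mem (Dg.mul_mem (Dg.inv_mem hg) hD) hg)
  calc a • g • y = g • (g⁻¹ * a * g) • y := by simp only [← mul_smul]; congr 1; group
    _ = g • y := by rw [h2]

theorem map_mem_coreC {Dg : Subgroup G} {p : ℕ} {x : J} (hx : x ∈ coreC (J := J) Dg p)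
    (S : J →+ J) (hS : ∀ (g : G) (x : J), S (g • x) = g • S x) : S x ∈ coreC (J := J) Dg p := by
  obtain ⟨H, n, f, h⟩ := hx
  refine ⟨H, n, f, fun k => ?_⟩
  obtain ⟨y, e, i⟩ := h k
  exact ⟨S y, by rw [← map_nsmul, e], fun a ha hD => by rw [← hS, i a ha hD]⟩

/-- a normal subgroup of finite index fixing a point with a finite orbit -/
theorem exists_normal_fixing {x : J} (h : (MulAction.orbit G x).Finite) :
    ∃ H : Subgroup G, H.Normal ∧ H.FiniteIndex ∧ ∀ g ∈ H, g • x = x := by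
  have : Finite (MulAction.orbit G x) := h
  refine ⟨(MulAction.toPermHom G (MulAction.orbit G x)).ker, inferInstance, inferInstance,
    fun g hg => ?_⟩
  have h1 : MulAction.toPermHom G (MulAction.orbit G x) g = 1 := hg
  have h2 := congrArg (fun e : Equiv.Perm (MulAction.orbit G x) =>
    ((e ⟨x, MulAction.mem_orbit_self x⟩ : MulAction.orbit G x) : J)) h1
  simpa using h2

variable (Dg I : Subgroup G) (p : ℕ)
  (hdiv : ∀ (k : ℕ) (x : J), ∃ y : J, p ^ k • y = x)
  (hin : ∀ (k : ℕ) (y : J), ∀ i ∈ I, i • (p ^ k • y) = p ^ k • y → i • y = y)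
  (horb : ∀ x : J, (MulAction.orbit G x).Finite)

include hin in
/-- inertia acts trivially on the `p`-power torsion -/
theorem inertia_torsion {z : J} {k : ℕ} (hz : p ^ k • z = 0) {i : G} (hi : i ∈ I) : i • z = z :=
  hin k z i hi (by rw [hz, smul_zero])

include hdiv hin horb in
/-- a general principle: `∑ⱼ Sⱼ (sⱼ • x) ∈ C` as soon as the `sⱼ ∈ Dg` commute with `Dg` modulo `I`
and `∑ⱼ Sⱼ (sⱼ • z) = 0` for the `p`-power torsion points `z`. -/
theorem sum_mem_coreC {ι : Type} (t : Finset ι) (s : ι → G) (S : ι → J →+ J)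
    (hs : ∀ j ∈ t, s j ∈ Dg) (hsc : ∀ j ∈ t, ∀ g ∈ Dg, g⁻¹ * (s j)⁻¹ * g * s j ∈ I)
    (hS : ∀ j ∈ t, ∀ (g : G) (x : J), S j (g • x) = g • S j x)
    (htors : ∀ z : J, (∃ k : ℕ, p ^ k • z = 0) → ∑ j ∈ t, S j (s j • z) = 0) (x : J) :
    ∑ j ∈ t, S j (s j • x) ∈ coreC (J := J) Dg p := by
  obtain ⟨H, n, f, hH⟩ := exists_normal_fixing (horb x)
  refine ⟨H, n, f, fun k => ?_⟩
  obtain ⟨y, hy⟩ := hdiv k x
  refine ⟨∑ j ∈ t, S j (s j • y), ?_, fun g hg hD => ?_⟩
  · rw [Finset.smul_sum]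
    refine Finset.sum_congr rfl fun j _ => ?_
    rw [← map_nsmul, ← hy, smul_comm]
  · -- the cocycle
    set c : J := g • y - y with hc
    have hck : p ^ k • c = 0 := by
      rw [hc, smul_sub, smul_comm, hy, hH g hg, sub_self]
    have key : ∀ j ∈ t, g • S j (s j • y) = S j (s j • y) + S j (s j • c) := by
      intro j hj
      set g' : G := (s j)⁻¹ * g * s j with hg'
      have hg'H : g' ∈ H := by
        have := n.conj_mem g hg (s j)⁻¹
        simpa [hg'] using this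
      have hg'D : g' ∈ Dg := Dg.mul_mem (Dg.mul_mem (Dg.inv_mem (hs j hj)) hD) (hs j hj)
      set i : G := g⁻¹ * g' with hi
      have hiI : i ∈ I := by
        have := hsc j hj g hD
        rw [hi, hg']
        simpa [mul_assoc] using this
      have hiH : i ∈ H := H.mul_mem (H.inv_mem hg) hg'H
      have hiy : i • y = y := hin k y i hiI (by rw [hy, hH i hiH])
      have h1 : g' • y = g • y := by
        have : g' = g * i := by rw [hi]; group
        rw [this, mul_smul, hiy]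
      have h2 : g • s j • y = s j • g' • y := by
        simp only [← mul_smul]; congr 1; rw [hg']; group
      rw [← hS j hj, h2, h1, ← map_add, ← smul_add, hc]
      congr 2
      abel
    rw [Finset.smul_sum, Finset.sum_congr rfl key, Finset.sum_add_distrib, htors c ⟨k, hck⟩,
      add_zero]

/-- `C` meets the `p`-power torsion trivially -/
theorem eq_zero_of_mem_coreC {σ : G} (hσ : σ ∈ Dg)
    (hfix : ∀ f : ℕ, 0 < f → ∃ c : ℕ, 0 < c ∧ ∀ z : J, (∃ k : ℕ, p ^ k • z = 0) →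
      σ ^ f • z = z → c • z = 0)
    {z : J} (hz : z ∈ coreC (J := J) Dg p) {k₀ : ℕ} (hk₀ : p ^ k₀ • z = 0) : z = 0 := by
  obtain ⟨H, n, f, h⟩ := hz
  have hf0 : 0 < H.index := Nat.pos_of_ne_zero f.index_ne_zero
  obtain ⟨c, hc0, hc⟩ := hfix H.index hf0
  obtain ⟨y, hy, hyfix⟩ := h c
  have hytors : p ^ (k₀ + c) • y = 0 := by rw [pow_add, mul_smul, hy, hk₀]
  have hcy : c • y = 0 := hc y ⟨_, hytors⟩
    (hyfix _ (Subgroup.pow_index_mem H σ) (Dg.pow_mem hσ _))
  have ho1 : addOrderOf y ∣ c := addOrderOf_dvd_of_nsmul_eq_zero hcy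
  have ho2 : addOrderOf y ∣ p ^ (k₀ + c) := addOrderOf_dvd_of_nsmul_eq_zero hytors
  have ho0 : addOrderOf y ≠ 0 := fun h0 => hc0.ne' (Nat.eq_zero_of_zero_dvd (h0 ▸ ho1))
  have ho3 : addOrderOf y ∣ p ^ c :=
    (dvd_pow_self_of_dvd_pow ho0 ho2).trans (pow_dvd_pow p (Nat.le_of_dvd hc0 ho1))
  rw [← hy]
  exact addOrderOf_dvd_iff_nsmul_eq_zero.1 ho3

end

end Fermat.Agent.S37lib
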