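import Fermat.Agent.ES.E.ThetaC
import Fermat.Agent.S37.Z0Poly
import Fermat.Agent.S37.Core

/-!
# S37 library, part (ASM): transport of (Z0) to `W_{p^n}(ℚ̄, N)`

If `u` has divisor divisible by `p ^ (k + j)`, its class is fixed by `φ ^ r` (`φ` a Frobenius at
`ℓ ∤ N p`) and `j` is large (depending on `r` only), then `u` is a `p ^ k`-th power.
-/

set_option autoImplicit false

open ModularCurve AlgebraicCurve Polynomial Fermat.Agent.ESlib Fermat.Agent.ESlib.PartD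

namespace Fermat.Agent.S37lib

noncomputable section

/-- the statement of (Z0) for the prime `ℓ` and the exponent `r` -/
def Z0At (N : ℕ) [NeZero N] {ℓ : ℕ} (hℓ : ℓ.Prime) (hℓN : ¬ ℓ ∣ N) (r : ℕ) : Prop :=
  ∃ (G : ℤ[X]) (δ : ℤ), δ ≠ 0 ∧
    aeval (CuspForm.heckeAlgebra.T hℓ hℓN (Set.notMem_empty ℓ) : CuspForm.heckeAlgebra N 2 ∅)
      (G * Rr ℓ r) = (δ : CuspForm.heckeAlgebra N 2 ∅)

/-- reduction of endomorphisms modulo `p ^ n` -/
def redEnd (Λ : Type) [AddCommGroup Λ] (p n : ℕ) :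
    Module.End ℤ Λ →ₐ[ℤ] Module.End ℤ (Λ ⧸ powSub Λ p n) where
  toFun f := (powSub Λ p n).mapQ (powSub Λ p n) f (by
    rintro _ ⟨y, rfl⟩
    exact ⟨f y, by simp⟩)
  map_one' := by
    refine LinearMap.ext fun X => ?_
    obtain ⟨x, rfl⟩ := Submodule.Quotient.mk_surjective _ X
    rfl
  map_mul' f g := by
    refine LinearMap.ext fun X => ?_
    obtain ⟨x, rfl⟩ := Submodule.Quotient.mk_surjective _ X
    rfl
  map_zero' := by
    refine LinearMap.ext fun X => ?_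
    obtain ⟨x, rfl⟩ := Submodule.Quotient.mk_surjective _ X
    rfl
  map_add' f g := by
    refine LinearMap.ext fun X => ?_
    obtain ⟨x, rfl⟩ := Submodule.Quotient.mk_surjective _ X
    rfl
  commutes' r := by
    refine LinearMap.ext fun X => ?_
    obtain ⟨x, rfl⟩ := Submodule.Quotient.mk_surjective _ X
    rfl

theorem redEnd_mk (Λ : Type) [AddCommGroup Λ] (p n : ℕ) (f : Module.End ℤ Λ) (x : Λ) :
    redEnd Λ p n f (Submodule.Quotient.mk x) = Submodule.Quotient.mk (f x) := rfl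

/-- arithmetic in a torsion free group -/
theorem mem_powSub_of_smul_mem {Λ : Type} [AddCommGroup Λ] [Module.Free ℤ Λ] {p : ℕ}
    {δ : ℤ} (hδ : δ ≠ 0) {k j : ℕ} (hj : δ.natAbs ≤ j) {x : Λ}
    (h : δ • x ∈ powSub Λ p (k + j)) : x ∈ powSub Λ p k := by
  obtain ⟨y, hy⟩ := h
  have hy' : ((p : ℤ) ^ (k + j)) • y = δ • x := hy
  set d : ℕ := Int.gcd δ ((p : ℤ) ^ (k + j)) with hd
  have hd0 : d ≠ 0 := by
    rw [hd, Ne, Int.gcd_eq_zero_iff]
    exact fun h => hδ h.1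
  have hd1 : (d : ℤ) ∣ δ := Int.gcd_dvd_left _ _
  have hd2 : (d : ℤ) ∣ (p : ℤ) ^ (k + j) := Int.gcd_dvd_right _ _
  have hd2' : d ∣ p ^ (k + j) := by exact_mod_cast hd2
  have hdle : d ≤ j := le_trans (Nat.le_of_dvd (Int.natAbs_pos.2 hδ)
    (Int.natCast_dvd.1 hd1)) hj
  have hd3 : d ∣ p ^ j := (dvd_pow_self_of_dvd_pow hd0 hd2').trans (pow_dvd_pow p hdle)
  obtain ⟨e, he⟩ := hd3
  obtain ⟨δ', hδ'⟩ := hd1
  have hM : (p : ℤ) ^ (k + j) = d * ((p : ℤ) ^ k * e) := by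
    rw [pow_add]
    have : ((p : ℤ) ^ j) = (d : ℤ) * e := by exact_mod_cast he
    rw [this]; ring
  have hcop : IsCoprime δ' ((p : ℤ) ^ k * e) := by
    have h1 := Int.isCoprime_iff_gcd_eq_one.2
      (Int.gcd_div_gcd_div_gcd (i := δ) (j := (p : ℤ) ^ (k + j)) (Nat.pos_of_ne_zero hd0))
    have hdz : (d : ℤ) ≠ 0 := by exact_mod_cast hd0
    rw [← hd] at h1
    rwa [hM, Int.mul_ediv_cancel_left _ hdz, hδ', Int.mul_ediv_cancel_left _ hdz] at h1
  have hcancel : ((p : ℤ) ^ k * e) • y = δ' • x := by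
    have hdz : (d : ℤ) ≠ 0 := by exact_mod_cast hd0
    have h2 : (d : ℤ) • (((p : ℤ) ^ k * e) • y) = (d : ℤ) • (δ' • x) := by
      rw [smul_smul, smul_smul, ← hM, ← hδ', hy']
    exact smul_right_injective Λ hdz h2
  obtain ⟨a, b, hab⟩ := hcop
  refine ⟨(a * e) • y + (b * e) • x, ?_⟩
  show ((p : ℤ) ^ k) • ((a * e) • y + (b * e) • x) = x
  calc ((p : ℤ) ^ k) • ((a * e) • y + (b * e) • x)
      = a • (((p : ℤ) ^ k * e) • y) + (b * ((p : ℤ) ^ k * e)) • x := by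
        simp only [smul_add, smul_smul]; congr 2 <;> ring
    _ = (a * δ' + b * ((p : ℤ) ^ k * e)) • x := by rw [hcancel, smul_smul, add_smul]
    _ = x := by rw [hab, one_smul]

theorem thetaSys_trans_add {N : ℕ} [NeZero N] {p : ℕ} (D : ThetaSys N p) (k j : ℕ)
    {f : modularFunctionFieldBar N} {x : D.Λ} (hf : MDiv Qb (p ^ (k + j)) f)
    (h : D.rel (k + j) f x) : D.rel k f x := by
  induction j with
  | zero => exact h
  | succ j ih =>
    have hf' : MDiv Qb (p ^ (k + j)) f := hf.of_dvd' (pow_dvd_pow p (by omega))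
    exact ih hf' (D.trans (k + j) hf h)

/-- **Transport of (Z0).** -/
theorem exists_bound (N : ℕ) [NeZero N] {p : ℕ} (hp : 0 < p) {ℓ : ℕ} (hℓ : ℓ.Prime)
    (hℓN : ¬ ℓ ∣ N) {A : ValuationSubring Qb} (hA : A.LiesOverPrime ℓ) (hK : KILAt N A p)
    {φ : Qb ≃ₐ[ℚ] Qb} (hφ : A.IsFrobeniusAt φ ℓ) {r : ℕ} (hZ : Z0At N hℓ hℓN r) :
    ∃ j₀ : ℕ, ∀ (k j : ℕ) (u : modularFunctionFieldBar N), j₀ ≤ j → MDiv Qb (p ^ (k + j)) u →
      SameClass (p ^ (k + j)) u (galF N (φ ^ r) u) → ∃ w : modularFunctionFieldBar N,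
        u = w ^ (p ^ k) := by
  obtain ⟨G, δ, hδ, hG⟩ := hZ
  refine ⟨δ.natAbs, fun k j u hj hu hsame => ?_⟩
  set D := thetaSys N p hp with hD
  set n := k + j with hn
  obtain ⟨x, hx⟩ := (D.isTheta n).exists_right hu
  set T : FullHecke N := CuspForm.heckeAlgebra.T hℓ hℓN (Set.notMem_empty ℓ) with hT
  set t : Module.End ℤ (D.Λ ⧸ powSub D.Λ p n) := redEnd D.Λ p n (D.hecke T) with ht
  set y : Module.End ℤ (D.Λ ⧸ powSub D.Λ p n) := D.gal n φ with hy
  have hty : Commute t y := by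
    refine LinearMap.ext fun X => ?_
    obtain ⟨a, rfl⟩ := Submodule.Quotient.mk_surjective _ X
    obtain ⟨b, hb⟩ := Submodule.Quotient.mk_surjective _ (y (Submodule.Quotient.mk a))
    rw [Module.End.mul_apply, Module.End.mul_apply, ← hb, ht, redEnd_mk, redEnd_mk]
    exact (D.gal_hecke n φ T a b hb.symm).symm
  have h1 : y (y (Submodule.Quotient.mk x)) - t (y (Submodule.Quotient.mk x))
      + (ℓ : ℤ) • (Submodule.Quotient.mk x : D.Λ ⧸ powSub D.Λ p n) = 0 := by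
    obtain ⟨b, hb⟩ := Submodule.Quotient.mk_surjective _ (y (Submodule.Quotient.mk x))
    obtain ⟨c, hc⟩ := Submodule.Quotient.mk_surjective _ (y (Submodule.Quotient.mk b))
    have h := D.gal_frob hp n hℓ hℓN hA hK hφ x b c hb.symm hc.symm
    rw [← hb, ← hc, ht, redEnd_mk, ← Submodule.Quotient.mk_sub, ← Submodule.Quotient.mk_smul,
      ← Submodule.Quotient.mk_add, Submodule.Quotient.mk_eq_zero]
    exact h
  have h2 : (y ^ r) (Submodule.Quotient.mk x) = Submodule.Quotient.mk x := by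
    rw [hy, ← map_pow]
    exact (D.gal_mk_iff n (φ ^ r) hu hx).2 ((D.isTheta n).rel_of_sameClass hu hx hsame)
  have h3 := aeval_Rr_apply_eq_zero (ℓ : ℤ) r t y hty _ h1 h2
  -- apply `G`
  have h4 : aeval t (G * Rr ℓ r) = ((δ : ℤ) : Module.End ℤ (D.Λ ⧸ powSub D.Λ p n)) := by
    have e1 : t = ((redEnd D.Λ p n).comp (D.hecke.toIntAlgHom)) T := rfl
    rw [e1, aeval_algHom_apply, hG, map_intCast]
  have h5 : (δ : ℤ) • (Submodule.Quotient.mk x : D.Λ ⧸ powSub D.Λ p n) = 0 := by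
    have h6 := congrArg (fun f => f (Submodule.Quotient.mk x : D.Λ ⧸ powSub D.Λ p n)) h4
    simp only [map_mul, Module.End.mul_apply, h3, map_zero] at h6
    rw [← zsmul_one, LinearMap.smul_apply, Module.End.one_apply] at h6
    exact h6.symm
  rw [← Submodule.Quotient.mk_smul, Submodule.Quotient.mk_eq_zero] at h5
  have h7 : x ∈ powSub D.Λ p k := mem_powSub_of_smul_mem hδ hj h5
  have hu' : MDiv Qb (p ^ k) u := hu.of_dvd' (pow_dvd_pow p (by omega))
  have h8 : D.rel k u x := thetaSys_trans_add D k j hu hx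
  have h9 : D.rel k u 0 := ((D.isTheta k).right_iff hu' h8).2 (by
    rw [zero_sub]; exact neg_mem h7)
  exact ((D.isTheta k).zero_iff hu').1 h9

end

end Fermat.Agent.S37lib
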