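import Fermat.Agent.S37.AsmRed1
import Fermat.Agent.S37.AsmGal
import Fermat.Agent.S37.AsmBound
import Fermat.Prelude.Def_ModularCurve_HeckeModule

/-!
# S37 library, part (ASM): the subgroup `J1` of `J₀(N)(ℚ̄)`

`J1` is the group of the classes of the divisors `D` of degree zero such that for every `k` there is
a function `h`, congruent to a constant for the Gauss valuation, with `D ≡ div h` modulo `p ^ k`.

* (a) `eq_zero_of_mem_J1` : `J1` meets the `p`-power torsion trivially;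
* (b) `inertia_sub_mem_J1` : `i • x - x ∈ J1` for `i` in the inertia group;
* (c) `frobenius_rel_mem_J1` : `φ² x - T_ℓ φ x + ℓ x ∈ J1` for a Frobenius element `φ`.
-/

set_option autoImplicit false

open ModularCurve AlgebraicCurve Fermat.Agent.S28lib Fermat.Agent.ESlib

namespace Fermat.Agent.S37lib

noncomputable section

/-- the statement (DV): `J₀(N)(ℚ̄)` is divisible -/
def DVBar (N : ℕ) : Prop :=
  ∀ D : Divisor Qb (modularFunctionFieldBar N), Divisor.degree D = 0 → ∀ m : ℕ, 0 < m →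
    ∃ h : modularFunctionFieldBar N, h ≠ 0 ∧ ∀ v, (m : ℤ) ∣ D v - v.ord h

/-- `D ≡ div h` modulo `p ^ k` with `h` congruent to a constant, for all `k` -/
def Dv1 (N : ℕ) (A : ValuationSubring Qb) (p : ℕ)
    (D : Divisor Qb (modularFunctionFieldBar N)) : Prop :=
  ∀ k : ℕ, ∃ h : modularFunctionFieldBar N, Red1 N A h ∧ ∀ v, ((p ^ k : ℕ) : ℤ) ∣ D v - v.ord h

variable {N : ℕ} {A : ValuationSubring Qb} {p : ℕ}

theorem Dv1.zero : Dv1 N A p 0 := fun _ => ⟨1, Red1.one, fun v => by simp⟩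

theorem Dv1.add {D E : Divisor Qb (modularFunctionFieldBar N)} (hD : Dv1 N A p D)
    (hE : Dv1 N A p E) : Dv1 N A p (D + E) := by
  intro k
  obtain ⟨h, hr, hd⟩ := hD k
  obtain ⟨h', hr', hd'⟩ := hE k
  refine ⟨h * h', hr.mul hr', fun v => ?_⟩
  rw [v.ord_mul hr.ne_zero hr'.ne_zero, Finsupp.add_apply]
  have e : D v + E v - (v.ord h + v.ord h') = (D v - v.ord h) + (E v - v.ord h') := by ring
  rw [e]
  exact dvd_add (hd v) (hd' v)

theorem Dv1.neg {D : Divisor Qb (modularFunctionFieldBar N)} (hD : Dv1 N A p D) :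
    Dv1 N A p (-D) := by
  intro k
  obtain ⟨h, hr, hd⟩ := hD k
  refine ⟨h⁻¹, hr.inv, fun v => ?_⟩
  rw [v.ord_inv, Finsupp.neg_apply]
  have e : -D v - -v.ord h = -(D v - v.ord h) := by ring
  rw [e]
  exact (dvd_neg).2 (hd v)

/-- the subgroup `J1` -/
def J1 (N : ℕ) (A : ValuationSubring Qb) (p : ℕ) : AddSubgroup (JZero N) where
  carrier := {x | ∃ D : Divisor.degZero (K := Qb) (F := modularFunctionFieldBar N),
    Pic0.mk D = x ∧ Dv1 N A p D}
  zero_mem' := ⟨0, rfl, Dv1.zero⟩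
  add_mem' := by
    rintro _ _ ⟨D, rfl, hD⟩ ⟨E, rfl, hE⟩
    exact ⟨D + E, rfl, hD.add hE⟩
  neg_mem' := by
    rintro _ ⟨D, rfl, hD⟩
    exact ⟨-D, rfl, hD.neg⟩

theorem mk_mem_J1 {D : Divisor.degZero (K := Qb) (F := modularFunctionFieldBar N)}
    (h : Dv1 N A p D) : Pic0.mk D ∈ J1 N A p := ⟨D, rfl, h⟩

theorem ord_galF (σ : Qb ≃ₐ[ℚ] Qb) (v : Place Qb (modularFunctionFieldBar N))
    (f : modularFunctionFieldBar N) :
    v.ord (galF N σ f) = ((arithmeticGalois (modularFunctionFieldFull N) σ)⁻¹ • v).ord f := by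
  set g := arithmeticGalois (modularFunctionFieldFull N) σ with hg
  have h := SemilinearAut.ord_smul g (g⁻¹ • v) f
  rw [smul_inv_smul] at h
  exact h

theorem galF_ne_zero (σ : Qb ≃ₐ[ℚ] Qb) {f : modularFunctionFieldBar N} (hf : f ≠ 0) :
    galF N σ f ≠ 0 := (map_ne_zero_iff _ (galF N σ).injective).2 hf

/-- **(a)** -/
theorem eq_zero_of_mem_J1 [NeZero N] (hp : 0 < p) {ℓ : ℕ} (hℓ : ℓ.Prime) (hℓN : ¬ ℓ ∣ N)
    (hA : A.LiesOverPrime ℓ) (hK : KILAt N A p) {φ : Qb ≃ₐ[ℚ] Qb} (hφ : A.IsFrobeniusAt φ ℓ)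
    (hZ : ∀ r : ℕ, 0 < r → Z0At N hℓ hℓN r) {x : JZero N} (hx : x ∈ J1 N A p) {k : ℕ}
    (hk : p ^ k • x = 0) : x = 0 := by
  have : Fact ℓ.Prime := ⟨hℓ⟩
  obtain ⟨D, rfl, hD⟩ := hx
  have h1 : (p ^ k • D : Divisor.degZero (K := Qb) (F := modularFunctionFieldBar N)) ∈
      (Divisor.principal (K := Qb) (F := modularFunctionFieldBar N)).addSubgroupOf
        (Divisor.degZero (K := Qb) (F := modularFunctionFieldBar N)) :=
    (QuotientAddGroup.eq_zero_iff _).1 hk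
  obtain ⟨g, hg0, hg⟩ := AddSubgroup.mem_addSubgroupOf.1 h1
  have hg' : ∀ v, ((p ^ k : ℕ) : ℤ) * (D : Divisor Qb (modularFunctionFieldBar N)) v
      = v.ord g := by
    intro v
    rw [← hg v]
    simp
  obtain ⟨r, hr, hfix⟩ := exists_pow_galF_eq g φ
  obtain ⟨j₀, hj₀⟩ := exists_bound N hp hℓ hℓN hA hK hφ (hZ r hr)
  obtain ⟨h, hred, hdiv⟩ := hD j₀
  have hh0 := hred.ne_zero
  set u : modularFunctionFieldBar N := g * (h ^ (p ^ k))⁻¹ with hu
  have hhk : h ^ (p ^ k) ≠ 0 := pow_ne_zero _ hh0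
  have hMD : MDiv Qb (p ^ (k + j₀)) u := by
    refine ⟨mul_ne_zero hg0 (inv_ne_zero hhk), fun v => ?_⟩
    rw [hu, v.ord_mul hg0 (inv_ne_zero hhk), v.ord_inv, ← zpow_natCast, v.ord_zpow, ← hg' v,
      pow_add]
    obtain ⟨c, hc⟩ := hdiv v
    refine ⟨c, ?_⟩
    push_cast at hc ⊢
    linear_combination ((p : ℤ) ^ k) * hc
  have hdec : φ ^ r ∈ A.decompositionSubgroup ℚ :=
    Subgroup.pow_mem _ hφ.mem_decompositionSubgroup r
  set w : modularFunctionFieldBar N := (h * (galF N (φ ^ r) h)⁻¹) ^ (p ^ k) with hw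
  have hgh0 : galF N (φ ^ r) h ≠ 0 := galF_ne_zero _ hh0
  have e : galF N (φ ^ r) u = u * w := by
    rw [hu, map_mul, map_inv₀, map_pow, hfix, hw, mul_pow, inv_pow]
    field_simp
  have hwred : Red1 N A w := (hred.mul (hred.galF hdec).inv).pow _
  have hwMD : MDiv Qb (p ^ (k + j₀)) w := by
    have h2 : w = galF N (φ ^ r) u * u⁻¹ := by
      rw [e, mul_comm u w, mul_assoc, mul_inv_cancel₀ hMD.1, mul_one]
    rw [h2]
    exact (mDiv_galF hMD _).mul' hMD.inv'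
  have hsame : SameClass (p ^ (k + j₀)) u (galF N (φ ^ r) u) := by
    obtain ⟨g', hg'0, hg'e⟩ := hwred.sameClass (pow_pos hp _) (KILAt.pow hℓN hA hp hK _) hwMD
    exact ⟨g', hg'0, by rw [e, hg'e, one_mul]⟩
  obtain ⟨w', hw'⟩ := hj₀ k j₀ u le_rfl hMD hsame
  have hw'0 : w' ≠ 0 := by
    rintro rfl
    rw [zero_pow (pow_pos hp k).ne'] at hw'
    exact hMD.1 hw'
  have hgpow : g = (w' * h) ^ (p ^ k) := by
    rw [mul_pow, ← hw', hu, mul_assoc, inv_mul_cancel₀ hhk, mul_one]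
  refine (QuotientAddGroup.eq_zero_iff _).2 (AddSubgroup.mem_addSubgroupOf.2
    ⟨w' * h, mul_ne_zero hw'0 hh0, fun v => ?_⟩)
  have h3 := hg' v
  rw [hgpow, ← zpow_natCast, v.ord_zpow] at h3
  exact mul_left_cancel₀ (by exact_mod_cast (pow_pos hp k).ne') h3

/-- **(b)** -/
theorem inertia_sub_mem_J1 [NeZero N] (hp : 0 < p) {ℓ : ℕ} (hℓ : ℓ.Prime) (hℓN : ¬ ℓ ∣ N)
    (hA : A.LiesOverPrime ℓ) (hDV : DVBar N) {i : Qb ≃ₐ[ℚ] Qb} (hi : i ∈ A.inertiaSubgroupIn ℚ)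
    (x : JZero N) : i • x - x ∈ J1 N A p := by
  have : Fact ℓ.Prime := ⟨hℓ⟩
  obtain ⟨D, rfl⟩ := Pic0.mk_surjective x
  set g := arithmeticGalois (modularFunctionFieldFull N) i with hg
  refine ⟨SemilinearAut.degZeroSMulHom g D - D, rfl, fun k => ?_⟩
  obtain ⟨h, hh, hdiv⟩ := hDV D D.2 (p ^ k) (pow_pos hp k)
  refine ⟨galF N i h * h⁻¹, red1_inertia hℓN hA hi hh, fun v => ?_⟩
  rw [v.ord_mul (galF_ne_zero i hh) (inv_ne_zero hh), v.ord_inv, ord_galF, ← hg]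
  have e : ((SemilinearAut.degZeroSMulHom g D - D :
      Divisor.degZero (K := Qb) (F := modularFunctionFieldBar N)) :
      Divisor Qb (modularFunctionFieldBar N)) v
      = (D : Divisor Qb (modularFunctionFieldBar N)) (g⁻¹ • v)
        - (D : Divisor Qb (modularFunctionFieldBar N)) v := by
    rw [AddSubgroup.coe_sub, Finsupp.sub_apply, SemilinearAut.coe_degZeroSMulHom,
      SemilinearAut.divisor_smul_apply]
  rw [e]
  obtain ⟨a, ha⟩ := hdiv (g⁻¹ • v)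
  obtain ⟨b, hb⟩ := hdiv v
  exact ⟨a - b, by linear_combination ha - hb⟩

/-- division of a divisor -/
theorem exists_divisor_eq_add_smul {D Dh : Divisor Qb (modularFunctionFieldBar N)} {m : ℕ}
    (h : ∀ v, (m : ℤ) ∣ D v - Dh v) :
    ∃ E : Divisor Qb (modularFunctionFieldBar N), D = Dh + (m : ℤ) • E := by
  refine ⟨Finsupp.mapRange (fun z : ℤ => z / m) (by simp) (D - Dh), ?_⟩
  ext v
  rw [Finsupp.add_apply, Finsupp.smul_apply, Finsupp.mapRange_apply, Finsupp.sub_apply, smul_eq_mul,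
    Int.mul_ediv_cancel' (h v)]
  ring

/-- **(c)** -/
theorem frobenius_rel_mem_J1 [NeZero N] (hp : 0 < p) {ℓ : ℕ} [NeZero ℓ] (hℓ : ℓ.Prime)
    (hℓN : ¬ ℓ ∣ N) (hA : A.LiesOverPrime ℓ) (hDV : DVBar N)
    (hPD : HasPrincipalDivisors Qb (modularFunctionFieldBar N))
    {ζ : Qbˣ} (hζ : IsPrimitiveRoot ζ ℓ)
    (Td : Divisor Qb (modularFunctionFieldBar N) →+ Divisor Qb (modularFunctionFieldBar N))
    (h0 : ∀ D ∈ Divisor.degZero (K := Qb) (F := modularFunctionFieldBar N),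
      Td D ∈ Divisor.degZero (K := Qb) (F := modularFunctionFieldBar N))
    (hmk : ∀ D : Divisor.degZero (K := Qb) (F := modularFunctionFieldBar N),
      heckeOperatorBar N ⟨ℓ, hℓ⟩ (Pic0.mk D) = Pic0.mk ⟨Td D, h0 D D.2⟩)
    (hTd : ∀ h : modularFunctionFieldBar N, h ≠ 0 →
      ∀ D : Divisor Qb (modularFunctionFieldBar N), (∀ v, D v = v.ord h) →
      ∀ v, Td D v = v.ord (⟨heckeTS ℓ ζ (h : LaurentSeries Qb),
        heckeTS_mem_bar hℓ hℓN hζ _ h.2⟩ : modularFunctionFieldBar N))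
    {φ : Qb ≃ₐ[ℚ] Qb} (hφ : A.IsFrobeniusAt φ ℓ) (x : JZero N) :
    φ • φ • x - heckeOperatorBar N ⟨ℓ, hℓ⟩ (φ • x) + ℓ • x ∈ J1 N A p := by
  have : Fact ℓ.Prime := ⟨hℓ⟩
  obtain ⟨D, rfl⟩ := Pic0.mk_surjective x
  set g := arithmeticGalois (modularFunctionFieldFull N) φ with hg
  set D1 := SemilinearAut.degZeroSMulHom g D with hD1
  set D2 := SemilinearAut.degZeroSMulHom g D1 with hD2
  have e1 : φ • Pic0.mk D = Pic0.mk D1 := rfl
  have e2 : φ • Pic0.mk D1 = Pic0.mk D2 := rfl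
  rw [e1, e2, hmk]
  have emk : Pic0.mk (D2 - ⟨Td D1, h0 D1 D1.2⟩ + ℓ • D)
      = Pic0.mk D2 - Pic0.mk ⟨Td D1, h0 D1 D1.2⟩ + ℓ • Pic0.mk D := by
    show QuotientAddGroup.mk' _ (D2 - ⟨Td D1, h0 D1 D1.2⟩ + ℓ • D) = _
    rw [map_add, map_sub, map_nsmul]
    rfl
  rw [← emk]
  refine mk_mem_J1 (fun k => ?_)
  obtain ⟨h, hh, hdiv⟩ := hDV D D.2 (p ^ k) (pow_pos hp k)
  obtain ⟨Dh, hDh, -⟩ := hPD.exists_divisor h hh
  obtain ⟨E, hE⟩ := exists_divisor_eq_add_smul (D := (D : Divisor Qb (modularFunctionFieldBar N)))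
    (Dh := Dh) (m := p ^ k) (fun v => by rw [hDh v]; exact hdiv v)
  have hT := fun u hu => heckeTS_mem_bar (N := N) hℓ hℓN hζ u hu
  have hh1 := galF_ne_zero φ hh
  have hh2 := galF_ne_zero φ hh1
  set Th : modularFunctionFieldBar N := ⟨_, hT _ (galF N φ h).2⟩ with hTh
  have hred := red1_frobenius hℓN hA hζ hT hφ hh
  have hTh0 : Th ≠ 0 := by
    intro h0'
    apply hred.ne_zero
    rw [← hTh, h0', inv_zero, mul_zero]
  refine ⟨_, hred, fun v => ?_⟩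
  rw [← hTh, v.ord_mul (mul_ne_zero hh2 (pow_ne_zero _ hh)) (inv_ne_zero hTh0),
    v.ord_mul hh2 (pow_ne_zero _ hh), v.ord_inv, ← zpow_natCast, v.ord_zpow, ord_galF, ord_galF,
    ← hg]
  have c1 : (D1 : Divisor Qb (modularFunctionFieldBar N)) = g • Dh + ((p ^ k : ℕ) : ℤ) • (g • E) := by
    rw [hD1, SemilinearAut.coe_degZeroSMulHom, hE, smul_add, smul_comm]
  have c2 : Td (g • Dh) v = v.ord Th := by
    refine hTd (galF N φ h) hh1 (g • Dh) (fun w => ?_) v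
    rw [SemilinearAut.divisor_smul_apply, hDh, ord_galF]
  have c3 : ((D2 - ⟨Td D1, h0 D1 D1.2⟩ + ℓ • D :
      Divisor.degZero (K := Qb) (F := modularFunctionFieldBar N)) :
      Divisor Qb (modularFunctionFieldBar N)) v
      = (D : Divisor Qb (modularFunctionFieldBar N)) (g⁻¹ • g⁻¹ • v)
        - (v.ord Th + ((p ^ k : ℕ) : ℤ) * Td (g • E) v)
        + ℓ * (D : Divisor Qb (modularFunctionFieldBar N)) v := by
    have p1 : (D2 : Divisor Qb (modularFunctionFieldBar N)) v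
        = (D : Divisor Qb (modularFunctionFieldBar N)) (g⁻¹ • g⁻¹ • v) := by
      rw [hD2, SemilinearAut.coe_degZeroSMulHom, SemilinearAut.divisor_smul_apply, hD1,
        SemilinearAut.coe_degZeroSMulHom, SemilinearAut.divisor_smul_apply]
    have p2 : Td (D1 : Divisor Qb (modularFunctionFieldBar N)) v
        = v.ord Th + ((p ^ k : ℕ) : ℤ) * Td (g • E) v := by
      rw [c1, map_add, map_zsmul, Finsupp.add_apply, c2, Finsupp.smul_apply, smul_eq_mul]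
    rw [AddSubgroup.coe_add, AddSubgroup.coe_sub, Finsupp.add_apply, Finsupp.sub_apply, p1,
      AddSubgroup.coe_nsmul, Finsupp.smul_apply, nsmul_eq_mul]
    show _ - Td (D1 : Divisor Qb (modularFunctionFieldBar N)) v + _ = _
    rw [p2]
  rw [c3]
  obtain ⟨a, ha⟩ := hdiv (g⁻¹ • g⁻¹ • v)
  obtain ⟨b, hb⟩ := hdiv v
  refine ⟨a - Td (g • E) v + ℓ * b, ?_⟩
  linear_combination ha + (ℓ : ℤ) * hb

end

end Fermat.Agent.S37lib
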