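import Fermat.Agent.ES.E.Main

/-!
# S37 library, part (ASM): the subgroup `Red1` of `F_ℚ̄(N)ˣ`

`Red1 N A u` : up to a nonzero constant, `u` is the quotient of two series with coefficients in the
valuation ring `A` of `ℚ̄`, lying in `F_ℚ̄(N)`, with the same nonzero reduction.
-/

set_option autoImplicit false

open ModularCurve AlgebraicCurve Fermat.Agent.S28lib Fermat.Agent.ESlib

namespace Fermat.Agent.S37lib

noncomputable section

/-- `u ≡ constant` for the Gauss valuation attached to `A` -/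
def Red1 (N : ℕ) (A : ValuationSubring Qb) (u : modularFunctionFieldBar N) : Prop :=
  ∃ (c : Qb) (Y₁ Y₂ : LaurentSeries A), c ≠ 0 ∧ incA A Y₁ ∈ modularFunctionFieldBar N ∧
    incA A Y₂ ∈ modularFunctionFieldBar N ∧ redA A Y₁ = redA A Y₂ ∧ redA A Y₁ ≠ 0 ∧
    (u : LaurentSeries Qb) * incA A Y₂ = HahnSeries.C c * incA A Y₁

variable {N : ℕ} {A : ValuationSubring Qb}

theorem C_ne_zero' {c : Qb} (hc : c ≠ 0) : (HahnSeries.C c : LaurentSeries Qb) ≠ 0 := fun h =>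
  hc (HahnSeries.C_injective (by rw [h, map_zero]))

theorem Red1.ne_zero {u : modularFunctionFieldBar N} (h : Red1 N A u) : u ≠ 0 := by
  obtain ⟨c, Y₁, Y₂, hc, -, -, -, hne, hrel⟩ := h
  rintro rfl
  rw [ZeroMemClass.coe_zero, zero_mul] at hrel
  exact mul_ne_zero (C_ne_zero' hc) (redA_ne_zero_imp hne) hrel.symm

theorem Red1.one : Red1 N A 1 :=
  ⟨1, 1, 1, one_ne_zero, by rw [map_one]; exact one_mem _, by rw [map_one]; exact one_mem _, rfl,
    by rw [map_one]; exact one_ne_zero, by simp⟩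

theorem Red1.mul {u v : modularFunctionFieldBar N} (hu : Red1 N A u) (hv : Red1 N A v) :
    Red1 N A (u * v) := by
  obtain ⟨c, Y₁, Y₂, hc, h₁, h₂, hred, hne, hrel⟩ := hu
  obtain ⟨c', Y₁', Y₂', hc', h₁', h₂', hred', hne', hrel'⟩ := hv
  refine ⟨c * c', Y₁ * Y₁', Y₂ * Y₂', mul_ne_zero hc hc', ?_, ?_, ?_, ?_, ?_⟩
  · rw [map_mul]; exact mul_mem h₁ h₁'
  · rw [map_mul]; exact mul_mem h₂ h₂'
  · rw [map_mul, map_mul, hred, hred']
  · rw [map_mul]; exact mul_ne_zero hne hne'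
  · rw [map_mul, map_mul, map_mul]
    show (u : LaurentSeries Qb) * (v : LaurentSeries Qb) * _ = _
    linear_combination ((v : LaurentSeries Qb) * incA A Y₂') * hrel
      + (HahnSeries.C c * incA A Y₁) * hrel'

theorem Red1.inv {u : modularFunctionFieldBar N} (hu : Red1 N A u) : Red1 N A u⁻¹ := by
  have hu0 := hu.ne_zero
  obtain ⟨c, Y₁, Y₂, hc, h₁, h₂, hred, hne, hrel⟩ := hu
  refine ⟨c⁻¹, Y₂, Y₁, inv_ne_zero hc, h₂, h₁, hred.symm, hred ▸ hne, ?_⟩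
  have hu0' : (u : LaurentSeries Qb) ≠ 0 := fun h => hu0 (Subtype.ext h)
  have hC := C_ne_zero' hc
  show (u : LaurentSeries Qb)⁻¹ * _ = _
  rw [map_inv₀]
  field_simp
  linear_combination -hrel

theorem Red1.pow {u : modularFunctionFieldBar N} (hu : Red1 N A u) (k : ℕ) : Red1 N A (u ^ k) := by
  induction k with
  | zero => rw [pow_zero]; exact Red1.one
  | succ k ih => rw [pow_succ]; exact ih.mul hu

theorem Red1.galF {u : modularFunctionFieldBar N} (hu : Red1 N A u) {σ : Qb ≃ₐ[ℚ] Qb}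
    (hσ : σ ∈ A.decompositionSubgroup ℚ) : Red1 N A (galF N σ u) := by
  obtain ⟨c, Y₁, Y₂, hc, h₁, h₂, hred, hne, hrel⟩ := hu
  set g : A.decompositionSubgroup ℚ := ⟨σ, hσ⟩ with hg
  refine ⟨σ c, galA g Y₁, galA g Y₂, (map_ne_zero σ).2 hc, incA_galA_mem g h₁, incA_galA_mem g h₂,
    ?_, redA_galA_ne_zero g hne, ?_⟩
  · ext n
    rw [redA_galA, redA_galA, hred]
  · have h := congrArg (coeffMap (σ : Qb →+* Qb)) hrel
    rw [map_mul, map_mul, coeffMap_C] at h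
    rw [incA_galA, incA_galA]
    exact h

/-- the consequence of KIL -/
theorem Red1.sameClass {u : modularFunctionFieldBar N} (h : Red1 N A u) {m : ℕ} (hm : 0 < m)
    (hK : KILAt N A m) (hu : MDiv Qb m u) : SameClass m 1 u := by
  obtain ⟨c, Y₁, Y₂, hc, h₁, h₂, hred, hne, hrel⟩ := h
  refine sameClass_of_KIL hm hK ⟨one_ne_zero, fun v => by simp⟩ hu hc Y₁ Y₂ h₁ h₂ hred hne ?_
  rw [hrel]
  simp

/-- **(b) on functions**: `σ h / h` is `Red1` for `σ` in the inertia group. -/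
theorem red1_inertia [NeZero N] {ℓ : ℕ} [Fact ℓ.Prime] (hℓN : ¬ ℓ ∣ N)
    (hA : A.LiesOverPrime ℓ) {σ : Qb ≃ₐ[ℚ] Qb} (hσ : σ ∈ A.inertiaSubgroupIn ℚ)
    {f : modularFunctionFieldBar N} (hf : f ≠ 0) : Red1 N A (ESlib.galF N σ f * f⁻¹) := by
  obtain ⟨g, hg, rfl⟩ := Subgroup.mem_map.mp hσ
  obtain ⟨c, y₁, y₂, hc, h₁, h₂, hr₁, hr₂, hrel⟩ := exists_intRep N hℓN A hA f.2
    (fun h => hf (Subtype.ext h))
  have hrelσ := congrArg (coeffMap (((g : Qb ≃ₐ[ℚ] Qb) : Qb →+* Qb))) hrel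
  rw [map_mul, map_mul, ← incA_galA, ← incA_galA, coeffMap_C] at hrelσ
  set σ : Qb ≃ₐ[ℚ] Qb := (g : Qb ≃ₐ[ℚ] Qb) with hσdef
  have hσc : σ c ≠ 0 := (map_ne_zero σ).2 hc
  have hCc := C_ne_zero' hc
  have hf' : (f : LaurentSeries Qb) ≠ 0 := fun h => hf (Subtype.ext h)
  refine ⟨σ c / c, galA g y₁ * y₂, galA g y₂ * y₁, div_ne_zero hσc hc, ?_, ?_, ?_, ?_, ?_⟩
  · rw [map_mul]; exact mul_mem (incA_galA_mem g h₁) h₂
  · rw [map_mul]; exact mul_mem (incA_galA_mem g h₂) h₁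
  · rw [map_mul, map_mul, redA_galA_of_mem_inertia hg, redA_galA_of_mem_inertia hg, mul_comm]
  · rw [map_mul, redA_galA_of_mem_inertia hg]
    exact mul_ne_zero hr₁ hr₂
  · show coeffMap (σ : Qb →+* Qb) (f : LaurentSeries Qb) * (f : LaurentSeries Qb)⁻¹ * _ = _
    rw [map_mul, map_mul, map_div₀]
    have h3 : coeffMap (σ : Qb →+* Qb) (f : LaurentSeries Qb) * incA A (galA g y₂)
        = HahnSeries.C (σ c) * incA A (galA g y₁) := hrelσ
    field_simp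
    linear_combination (HahnSeries.C c * incA A y₁) * h3
      - (HahnSeries.C (σ c) * incA A (galA g y₁)) * hrel

/-- **(ESf)**: the Eichler-Shimura congruence on functions. -/
theorem red1_frobenius [NeZero N] {ℓ : ℕ} [Fact ℓ.Prime] [NeZero ℓ] (hℓN : ¬ ℓ ∣ N)
    (hA : A.LiesOverPrime ℓ) {ζ : Qbˣ} (hζ : IsPrimitiveRoot ζ ℓ)
    (hT : ∀ u ∈ modularFunctionFieldBar N, heckeTS ℓ ζ u ∈ modularFunctionFieldBar N)
    {σ : Qb ≃ₐ[ℚ] Qb} (hσ : A.IsFrobeniusAt σ ℓ) {f : modularFunctionFieldBar N} (hf : f ≠ 0) :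
    Red1 N A (ESlib.galF N σ (ESlib.galF N σ f) * f ^ ℓ *
      (⟨_, hT _ (ESlib.galF N σ f).2⟩ : modularFunctionFieldBar N)⁻¹) := by
  obtain ⟨hdec, hfrob⟩ := hσ
  set g : A.decompositionSubgroup ℚ := ⟨σ, hdec⟩ with hg
  have hchar : CharP (IsLocalRing.ResidueField A) ℓ := charP_resFieldE Fact.out hA
  obtain ⟨ζA, hζA⟩ := exists_unit_of_pow_eq_one (A := A) (NeZero.ne ℓ) hζ.pow_eq_one
  have hζA1 : ζA ^ ℓ = 1 := by
    apply Units.map_injective (f := (A.subtype : A →* Qb)) Subtype.val_injective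
    rw [map_pow, hζA, hζ.pow_eq_one, map_one]
  have hincT : ∀ y : LaurentSeries A, incA A (heckeTS ℓ ζA y) = heckeTS ℓ ζ (incA A y) := by
    intro y
    rw [coeffMap_heckeTS, hζA]
  obtain ⟨c, y₁, y₂, hc, h₁, h₂, hr₁, hr₂, hrel⟩ := exists_intRep N hℓN A hA f.2
    (fun h => hf (Subtype.ext h))
  have hinc : ∀ y : LaurentSeries A, incA A (galA g y) = coeffMap (σ : Qb →+* Qb) (incA A y) :=
    fun y => incA_galA g y
  have hrelσ := congrArg (coeffMap (σ : Qb →+* Qb)) hrel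
  rw [map_mul, map_mul, ← hinc, ← hinc, coeffMap_C] at hrelσ
  have hrelσσ := congrArg (coeffMap (σ : Qb →+* Qb)) hrelσ
  rw [map_mul, map_mul, ← hinc, ← hinc, coeffMap_C] at hrelσσ
  have hrelT := congrArg (heckeTSHom hζ) hrelσ
  rw [map_mul, map_mul] at hrelT
  simp only [heckeTSHom_apply, heckeTS_C] at hrelT
  have hσc : σ c ≠ 0 := (map_ne_zero σ).2 hc
  have hσσc : σ (σ c) ≠ 0 := (map_ne_zero σ).2 hσc
  have hW : ∀ y : LaurentSeries A, redA A y ≠ 0 → redA A (y ^ ℓ * galA g (galA g y)) ≠ 0 := by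
    intro y hy
    rw [map_mul, map_pow]
    exact mul_ne_zero (pow_ne_zero _ hy) (redA_galA_ne_zero g (redA_galA_ne_zero g hy))
  have hWmem : ∀ y : LaurentSeries A, incA A y ∈ modularFunctionFieldBar N →
      incA A (y ^ ℓ * galA g (galA g y)) ∈ modularFunctionFieldBar N := by
    intro y hy
    rw [map_mul, map_pow]
    exact mul_mem (pow_mem hy _) (incA_galA_mem g (incA_galA_mem g hy))
  have hTmem : ∀ y : LaurentSeries A, incA A y ∈ modularFunctionFieldBar N →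
      incA A (heckeTS ℓ ζA (galA g y)) ∈ modularFunctionFieldBar N := by
    intro y hy
    rw [hincT]
    exact hT _ (incA_galA_mem g hy)
  refine ⟨σ (σ c) * c ^ ℓ / (σ c) ^ (ℓ + 1),
    (y₁ ^ ℓ * galA g (galA g y₁)) * heckeTS ℓ ζA (galA g y₂),
    (y₂ ^ ℓ * galA g (galA g y₂)) * heckeTS ℓ ζA (galA g y₁),
    div_ne_zero (mul_ne_zero hσσc (pow_ne_zero _ hc)) (pow_ne_zero _ hσc), ?_, ?_, ?_, ?_, ?_⟩
  · rw [map_mul]; exact mul_mem (hWmem y₁ h₁) (hTmem y₂ h₂)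
  · rw [map_mul]; exact mul_mem (hWmem y₂ h₂) (hTmem y₁ h₁)
  · rw [map_mul (redA A) (y₁ ^ ℓ * galA g (galA g y₁)),
      map_mul (redA A) (y₂ ^ ℓ * galA g (galA g y₂)), redA_heckeTS_galA hζA1 hfrob,
      redA_heckeTS_galA hζA1 hfrob, mul_comm]
  · rw [map_mul (redA A) (y₁ ^ ℓ * galA g (galA g y₁)), redA_heckeTS_galA hζA1 hfrob]
    exact mul_ne_zero (hW y₁ hr₁) (hW y₂ hr₂)
  · show coeffMap (σ : Qb →+* Qb) (coeffMap (σ : Qb →+* Qb) (f : LaurentSeries Qb))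
          * (f : LaurentSeries Qb) ^ ℓ
          * (heckeTS ℓ ζ (coeffMap (σ : Qb →+* Qb) (f : LaurentSeries Qb)))⁻¹ * _ = _
    simp only [map_mul, map_pow, hincT, map_div₀]
    have hC1 := C_ne_zero' (pow_ne_zero (ℓ + 1) hσc)
    rw [map_pow] at hC1
    rw [map_pow] at hrelT
    set a := (f : LaurentSeries Qb)
    set F1 := coeffMap (σ : Qb →+* Qb) a
    set F2 := coeffMap (σ : Qb →+* Qb) F1
    set u₁ := incA A y₁
    set u₂ := incA A y₂
    set v₁ := incA A (galA g y₁)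
    set v₂ := incA A (galA g y₂)
    set w₁ := incA A (galA g (galA g y₁))
    set w₂ := incA A (galA g (galA g y₂))
    have hpow : (a * u₂) ^ ℓ = (HahnSeries.C c * u₁) ^ ℓ := by rw [hrel]
    have ha0 : a ≠ 0 := fun h => hf (Subtype.ext h)
    have hF1 : F1 ≠ 0 := (map_ne_zero_iff _ (coeffMap_injective (σ : Qb →+* Qb).injective)).2 ha0
    have hTF1 : heckeTS ℓ ζ F1 ≠ 0 := by
      have := (map_ne_zero (heckeTSHom hζ)).2 hF1
      simpa using this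
    rw [div_mul_eq_mul_div, eq_div_iff hC1]
    have main : F2 * a ^ ℓ * (u₂ ^ ℓ * w₂ * heckeTS ℓ ζ v₁) * HahnSeries.C (σ c) ^ (ℓ + 1)
        = HahnSeries.C (σ (σ c)) * HahnSeries.C c ^ ℓ * (u₁ ^ ℓ * w₁ * heckeTS ℓ ζ v₂)
          * heckeTS ℓ ζ F1 := by
      calc F2 * a ^ ℓ * (u₂ ^ ℓ * w₂ * heckeTS ℓ ζ v₁) * HahnSeries.C (σ c) ^ (ℓ + 1)
          = (F2 * w₂) * (a * u₂) ^ ℓ * (HahnSeries.C (σ c) ^ (ℓ + 1) * heckeTS ℓ ζ v₁) := by ring
        _ = (HahnSeries.C (σ (σ c)) * w₁) * (HahnSeries.C c * u₁) ^ ℓ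
              * (heckeTS ℓ ζ F1 * heckeTS ℓ ζ v₂) := by rw [hrelσσ, hpow, hrelT]; rfl
        _ = _ := by ring
    field_simp
    linear_combination main

end

end Fermat.Agent.S37lib
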