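import Fermat.Agent.S24.RHMain
import Fermat.Agent.S37.HK.FFGen
import Fermat.Prelude.Def_AlgebraicCurve_Correspondence

/-!
# S37 library, part (HK): general function fields, rows HK0 / HK1

`K` algebraically closed of characteristic zero, `F ⊆ F'` a finite extension of function fields in
one variable over `K` (`S24RH.IsFF`).

* HK0 `hasPrincipalDivisors_of_isFF`, `inertiaDeg_eq_one_of_isFF`
* HK1 `fundamentalIdentity_of_isFF` : `∑_{w ∣ v} e(w ∣ v) deg w = [F' : F] deg v`
-/

set_option autoImplicit false

open AlgebraicCurve Fermat.Agent.S24RH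

namespace Fermat.Agent.S37lib

variable {K F F' : Type*} [Field K] [Field F] [Field F'] [Algebra K F] [Algebra K F']
  [IsAlgClosed K] [CharZero K]

/-- HK0 -/
theorem hasPrincipalDivisors_of_isFF (hFF : IsFF K F) : HasPrincipalDivisors K F := by
  classical
  refine ⟨fun f hf => ?_⟩
  have hfin := finite_ord_ne_zero hFF hf
  let D : Divisor K F := Finsupp.onFinset hfin.toFinset (fun v => v.ord f)
    (fun v hv => by simpa using hv)
  refine ⟨D, fun v => rfl, ?_⟩
  rw [Divisor.degree, Finsupp.liftAddHom_apply, Finsupp.sum]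
  have h1 : ∀ v ∈ D.support, (AddMonoidHom.mulRight (v.deg : ℤ)) (D v) = v.ord f := by
    intro v _
    rw [deg_eq_one hFF v]
    simp [D]
  rw [Finset.sum_congr rfl h1]
  refine sum_ord_eq_zero hFF hf _ (fun v hv => ?_)
  rw [Finsupp.mem_support_iff]
  exact hv

variable [Algebra F F'] [IsScalarTower K F F'] [Algebra.IsIntegral F F']

/-- HK0 -/
theorem inertiaDeg_eq_one_of_isFF (hFF : IsFF K F) (hFF' : IsFF K F') (w : Place K F') :
    w.inertiaDeg F = 1 := by
  have h := w.deg_restrict_mul_inertiaDeg (F := F)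
  rwa [deg_eq_one hFF, deg_eq_one hFF', one_mul] at h

/-- HK1.  Proof: `A := v.toValuationSubring` (a DVR, uniformiser `π`), `B :=` integral closure of
`A` in `F'`; apply `S24RH.sum_valuation_eq_finrank` exactly as in `S24RH.sum_ord_zeros`; the places
of `F'` containing `B` are those restricting to `v`; `w.ord (algebraMap π) = e(w)` by
`Place.ord_restrict`. -/
theorem sum_ramificationIndex_eq_finrank (hFF : IsFF K F) (hFF' : IsFF K F')
    [FiniteDimensional F F'] [HasPrincipalDivisors K F'] (v : Place K F) :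
    ∑ w ∈ v.fiber F', (w.ramificationIndex F : ℤ) = (Module.finrank F F' : ℤ) := by
  obtain ⟨t, ht, hsum, -⟩ := exists_fibre_data (F' := F') hFF v
  have : v.fiber F' = t := by
    ext w
    rw [Place.mem_fiber, ht]
  rw [this, hsum]

/-- HK1 -/
theorem fundamentalIdentity_of_isFF (hFF : IsFF K F) (hFF' : IsFF K F')
    [FiniteDimensional F F'] [HasPrincipalDivisors K F'] : FundamentalIdentity K F F' := by
  refine ⟨fun v => ?_⟩
  rw [deg_eq_one hFF v, ← sum_ramificationIndex_eq_finrank hFF hFF' v, Nat.cast_one, mul_one]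
  refine Finset.sum_congr rfl fun w _ => ?_
  rw [deg_eq_one hFF' w, Nat.cast_one, mul_one]

end Fermat.Agent.S37lib
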