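import Fermat.Agent.ES.E.ThetaC
import Fermat.Agent.S37.Z0Poly

/-!
# S37 library, (ASM): the function-level core of step (a)

`exists_pow_of_approx`: if `g ∈ F_ℚ̄(N)ˣ` can be approximated, for every `j`, by `h ^ (p ^ k)` with
`h` "reducing to a constant" in such a way that `g / h ^ (p ^ k)` has all its orders divisible by
`p ^ (k + j)`, then `g` is a `p ^ k`-th power.
-/

set_option autoImplicit false

open ModularCurve AlgebraicCurve Polynomial Fermat.Agent.ESlib Fermat.Agent.ESlib.PartD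

namespace Fermat.Agent.S37lib

noncomputable section

/-! ### Arithmetic -/

theorem dvd_pow_self_of_dvd_pow {p K : ℕ} : ∀ e : ℕ, 0 < e → e ∣ p ^ K → e ∣ p ^ e := by
  intro e
  induction e using Nat.strong_induction_on with
  | _ e ih =>
    intro he hdvd
    by_cases h1 : e = 1
    · subst h1; exact one_dvd _
    set d := Nat.gcd e p with hd
    have hd1 : d ≠ 1 := by
      intro h
      have hc : Nat.Coprime e (p ^ K) := Nat.Coprime.pow_right K h
      exact h1 (Nat.Coprime.eq_one_of_dvd hc hdvd)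
    have hde : d ∣ e := Nat.gcd_dvd_left e p
    have hdp : d ∣ p := Nat.gcd_dvd_right e p
    obtain ⟨e', he'⟩ := hde
    have hd0 : 0 < d := Nat.pos_of_dvd_of_pos (Nat.gcd_dvd_left e p) he
    have he'0 : 0 < e' := by
      rcases Nat.eq_zero_or_pos e' with h | h
      · rw [h, mul_zero] at he'; omega
      · exact h
    have hd2 : 2 ≤ d := by omega
    have hlt : e' < e := by
      rw [he']; nlinarith
    have h2 : e' ∣ p ^ e' := ih e' hlt he'0 (Dvd.dvd.trans ⟨d, by rw [he', mul_comm]⟩ hdvd)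
    have h3 : e ∣ p ^ (e' + 1) := by
      rw [he', pow_succ, mul_comm]
      exact mul_dvd_mul h2 hdp
    exact h3.trans (pow_dvd_pow p (by omega))

/-- `p ^ k ∣ p ^ (k + n) / gcd (n, p ^ (k + n))` -/
theorem exists_mul_gcd_eq {p n : ℕ} (hn : 0 < n) (k : ℕ) :
    ∃ c : ℕ, p ^ (k + n) = (p ^ k * c) * Nat.gcd n (p ^ (k + n)) := by
  set e := Nat.gcd n (p ^ (k + n)) with he
  have he0 : 0 < e := Nat.gcd_pos_of_pos_left _ hn
  have h1 : e ∣ p ^ e := dvd_pow_self_of_dvd_pow e he0 (Nat.gcd_dvd_right _ _)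
  have h2 : e ∣ p ^ n := h1.trans (pow_dvd_pow p (Nat.le_of_dvd hn (Nat.gcd_dvd_left _ _)))
  obtain ⟨c, hc⟩ := h2
  exact ⟨c, by rw [pow_add, hc]; ring⟩

/-! ### Roots in a field containing an algebraically closed field -/

section roots

variable (k : Type*) {F : Type*} [Field k] [IsAlgClosed k] [CharZero k] [Field F] [Algebra k F]

include k in
/-- `u ^ n = w ^ M`, `n > 0` ⟹ `u` is an `M / gcd (n, M)`-th power -/
theorem exists_pow_eq_of_pow_eq_pow {u w : F} (hu : u ≠ 0) {n M M' : ℕ} (hn : 0 < n) (hM : 0 < M)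
    (hM' : M = M' * Nat.gcd n M) (h : u ^ n = w ^ M) : ∃ v : F, u = v ^ M' := by
  set e := Nat.gcd n M with he
  have he0 : 0 < e := Nat.gcd_pos_of_pos_left _ hn
  obtain ⟨n', hn'⟩ : e ∣ n := Nat.gcd_dvd_left _ _
  have hM'0 : 0 < M' := by
    rcases Nat.eq_zero_or_pos M' with h0 | h0
    · rw [h0, zero_mul] at hM'; omega
    · exact h0
  have hcop : Nat.Coprime n' M' := by
    have h1 : Nat.gcd (e * n') (e * M') = e := by
      rw [← hn', mul_comm e M', ← hM']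
    rw [Nat.gcd_mul_left] at h1
    exact Nat.eq_of_mul_eq_mul_left he0 (by rw [h1, mul_one])
  have hw : w ≠ 0 := by
    rintro rfl
    rw [zero_pow hM.ne'] at h
    exact hu (pow_eq_zero_iff hn.ne' |>.1 h)
  -- the root of unity
  set ξ : F := u ^ n' / w ^ M' with hξ
  have hξe : ξ ^ e = 1 := by
    rw [hξ, div_pow, ← pow_mul, ← pow_mul, mul_comm n' e, ← hn', ← hM', h,
      div_self (pow_ne_zero _ hw)]
  have : NeZero (e : k) := ⟨by exact_mod_cast he0.ne'⟩
  have : NeZero e := ⟨he0.ne'⟩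
  obtain ⟨ζ, hζ⟩ := HasEnoughRootsOfUnity.exists_primitiveRoot k e
  have hζF : IsPrimitiveRoot (algebraMap k F ζ) e :=
    hζ.map_of_injective (algebraMap k F).injective
  obtain ⟨i, -, hi⟩ := hζF.eq_pow_of_pow_eq_one hξe
  obtain ⟨d, hd⟩ := IsAlgClosed.exists_pow_nat_eq (ζ ^ i) hM'0
  have h1 : u ^ n' = (algebraMap k F d * w) ^ M' := by
    rw [mul_pow, ← map_pow, hd, map_pow, hi, hξ, div_mul_cancel₀ _ (pow_ne_zero _ hw)]
  -- Bezout
  have hb : (n' : ℤ) * Nat.gcdA n' M' + (M' : ℤ) * Nat.gcdB n' M' = 1 := by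
    have := Nat.gcd_eq_gcd_ab n' M'
    rw [hcop] at this
    exact_mod_cast this.symm
  refine ⟨(algebraMap k F d * w) ^ (Nat.gcdA n' M') * u ^ (Nat.gcdB n' M'), ?_⟩
  rw [mul_pow, ← zpow_natCast, ← zpow_natCast, ← zpow_mul, ← zpow_mul, mul_comm (Nat.gcdA n' M'),
    zpow_mul, zpow_natCast, ← h1, ← zpow_natCast, ← zpow_mul, mul_comm (Nat.gcdB n' M'),
    ← zpow_add₀ hu, hb, zpow_one]

end roots

/-! ### The Hecke action on `Λ / p ^ n` -/

section theta

variable {N : ℕ} [NeZero N] {p : ℕ} (D : ThetaSys N p)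

/-- the endomorphism of `Λ / p ^ n` induced by an endomorphism of `Λ` -/
def endQ (n : ℕ) (t : Module.End ℤ D.Λ) : Module.End ℤ (D.Λ ⧸ powSub D.Λ p n) :=
  (powSub D.Λ p n).mapQ (powSub D.Λ p n) t (by
    rintro _ ⟨y, rfl⟩
    exact ⟨t y, by simp⟩)

theorem endQ_mk (n : ℕ) (t : Module.End ℤ D.Λ) (x : D.Λ) :
    endQ D n t (Submodule.Quotient.mk x) = Submodule.Quotient.mk (t x) := rfl

theorem endQ_pow_mk (n : ℕ) (t : Module.End ℤ D.Λ) (k : ℕ) (x : D.Λ) :
    (endQ D n t ^ k) (Submodule.Quotient.mk x) = Submodule.Quotient.mk ((t ^ k) x) := by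
  induction k generalizing x with
  | zero => simp
  | succ k ih => rw [pow_succ, pow_succ, Module.End.mul_apply, Module.End.mul_apply, endQ_mk, ih]

theorem aeval_endQ_mk (n : ℕ) (t : Module.End ℤ D.Λ) (Q : ℤ[X]) (x : D.Λ) :
    aeval (endQ D n t) Q (Submodule.Quotient.mk x) = Submodule.Quotient.mk (aeval t Q x) := by
  induction Q using Polynomial.induction_on' with
  | add a b ha hb =>
    rw [map_add, map_add, LinearMap.add_apply, LinearMap.add_apply, ha, hb,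
      Submodule.Quotient.mk_add]
  | monomial k a =>
    rw [aeval_monomial, aeval_monomial, Module.End.mul_apply, Module.End.mul_apply, endQ_pow_mk,
      Module.algebraMap_end_apply, Module.algebraMap_end_apply, Submodule.Quotient.mk_smul]

theorem aeval_hecke (t : FullHecke N) (Q : ℤ[X]) :
    aeval (D.hecke t) Q = D.hecke (aeval t Q) :=
  Polynomial.aeval_algHom_apply D.hecke.toIntAlgHom t Q

/-- **(Z0) transported to `W_{p^K}`.** -/
theorem zsmul_mem_powSub (hp : 0 < p) (K : ℕ) {ℓ : ℕ} (hℓ : ℓ.Prime) (hℓN : ¬ ℓ ∣ N)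
    {A : ValuationSubring Qb} (hA : A.LiesOverPrime ℓ) (hK : KILAt N A p)
    {φ : GQ} (hφ : A.IsFrobeniusAt φ ℓ) {r : ℕ} {G : ℤ[X]} {δ : ℤ}
    (hG : aeval (CuspForm.heckeAlgebra.T hℓ hℓN (Set.notMem_empty ℓ) : FullHecke N)
      (G * Rr (ℓ : ℤ) r) = (δ : FullHecke N))
    {u : modularFunctionFieldBar N} {x : D.Λ} (hu : MDiv Qb (p ^ K) u) (hx : D.rel K u x)
    (hfix : SameClass (p ^ K) u (galF N (φ ^ r) u)) : δ • x ∈ powSub D.Λ p K := by
  set T : FullHecke N := CuspForm.heckeAlgebra.T hℓ hℓN (Set.notMem_empty ℓ) with hT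
  set y := D.gal K φ with hy
  set t := endQ D K (D.hecke T) with ht
  have hty : Commute t y := by
    refine LinearMap.ext fun X => ?_
    obtain ⟨a, rfl⟩ := Submodule.Quotient.mk_surjective _ X
    obtain ⟨b, hb⟩ := Submodule.Quotient.mk_surjective _ (y (Submodule.Quotient.mk a))
    rw [Module.End.mul_apply, Module.End.mul_apply, ← hb, ht, endQ_mk, endQ_mk]
    exact (D.gal_hecke_T K φ hℓ hℓN a b hb.symm).symm
  obtain ⟨x1, hx1⟩ := Submodule.Quotient.mk_surjective _ (y (Submodule.Quotient.mk x))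
  obtain ⟨x2, hx2⟩ := Submodule.Quotient.mk_surjective _ (y (Submodule.Quotient.mk x1))
  have h1 : y (y (Submodule.Quotient.mk x)) - t (y (Submodule.Quotient.mk x))
      + (ℓ : ℤ) • (Submodule.Quotient.mk x : D.Λ ⧸ powSub D.Λ p K) = 0 := by
    rw [← hx1, ← hx2, ht, endQ_mk, ← Submodule.Quotient.mk_sub, ← Submodule.Quotient.mk_smul,
      ← Submodule.Quotient.mk_add, Submodule.Quotient.mk_eq_zero]
    exact D.gal_frob hp K hℓ hℓN hA hK hφ x x1 x2 hx1.symm hx2.symm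
  have h2 : (y ^ r) (Submodule.Quotient.mk x) = Submodule.Quotient.mk x := by
    rw [hy, ← map_pow]
    exact (D.gal_mk_iff K (φ ^ r) hu hx).2 ((D.isTheta K).rel_of_sameClass hu hx hfix)
  have h3 := aeval_Rr_apply_eq_zero (ℓ : ℤ) r t y hty _ h1 h2
  have h4 : aeval t (G * Rr (ℓ : ℤ) r) (Submodule.Quotient.mk x) = 0 := by
    rw [map_mul, Module.End.mul_apply, h3, map_zero]
  rw [ht, aeval_endQ_mk, aeval_hecke, hG, map_intCast, Module.End.intCast_apply,
    Submodule.Quotient.mk_eq_zero] at h4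
  exact h4

/-- `δ x ∈ p ^ K Λ` ⟹ `u ^ |δ|` is a `p ^ K`-th power -/
theorem exists_pow_natAbs_eq {K : ℕ} {δ : ℤ} {u : modularFunctionFieldBar N} {x : D.Λ}
    (hu : MDiv Qb (p ^ K) u) (hx : D.rel K u x) (h : δ • x ∈ powSub D.Λ p K) :
    ∃ w : modularFunctionFieldBar N, u ^ δ.natAbs = w ^ (p ^ K) := by
  have h1 := (D.isTheta K).rel_npow hu hx δ.natAbs
  have h2 : δ.natAbs • x ∈ powSub D.Λ p K := by
    rcases Int.natAbs_eq δ with h0 | h0
    · rw [h0, natCast_zsmul] at h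
      simpa using h
    · rw [h0, neg_smul, natCast_zsmul] at h
      simpa using (powSub D.Λ p K).neg_mem h
  have h3 : D.rel K (u ^ δ.natAbs) 0 :=
    ((D.isTheta K).right_iff (hu.pow' _) h1).2 (by
      rw [zero_sub]; exact (powSub D.Λ p K).neg_mem h2)
  exact ((D.isTheta K).zero_iff (hu.pow' _)).1 h3

end theta

/-! ### A power of the Frobenius fixes a given function -/

theorem exists_pow_fix {N : ℕ} (φ : GQ) (g : modularFunctionFieldBar N) :
    ∃ r : ℕ, 0 < r ∧ galF N (φ ^ r) g = g := by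
  obtain ⟨L, hL, hfix⟩ := exists_finite_level_fix g.2
  let f : ℕ → (L →ₐ[ℚ] Qb) := fun i => ((φ ^ i : GQ) : Qb →ₐ[ℚ] Qb).comp L.val
  obtain ⟨i, j, hij, hf⟩ := Finite.exists_ne_map_eq_of_infinite f
  wlog hlt : i < j generalizing i j
  · exact this j i hij.symm hf.symm (by omega)
  refine ⟨j - i, by omega, Subtype.ext (hfix _ fun x hx => ?_)⟩
  have h1 : (φ ^ i : GQ) x = (φ ^ j : GQ) x := congrArg (fun a => a ⟨x, hx⟩) hf
  have h2 : (φ ^ j : GQ) = φ ^ i * φ ^ (j - i) := by rw [← pow_add]; congr 1; omega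
  rw [h2, AlgEquiv.mul_apply] at h1
  exact ((φ ^ i : GQ).injective h1).symm

theorem galF_pow_induction {N : ℕ} (φ : GQ) (R : modularFunctionFieldBar N → Prop)
    (hRφ : ∀ u, R u → R (galF N φ u)) (r : ℕ) (u : modularFunctionFieldBar N) (hu : R u) :
    R (galF N (φ ^ r) u) := by
  induction r with
  | zero => rw [pow_zero, galF_one]; exact hu
  | succ r ih => rw [pow_succ', galF_mul]; exact hRφ _ ih

/-- **The function-level core of step (a).** -/
theorem exists_pow_of_approx {N p ℓ : ℕ} [NeZero N] (hp : 0 < p) (hℓ : ℓ.Prime) (hℓN : ¬ ℓ ∣ N)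
    {A : ValuationSubring Qb} (hA : A.LiesOverPrime ℓ) (hK : KILAt N A p)
    {φ : GQ} (hφ : A.IsFrobeniusAt φ ℓ)
    (hZ0 : ∀ r : ℕ, 0 < r → ∃ (G : ℤ[X]) (δ : ℤ), δ ≠ 0 ∧
      aeval (CuspForm.heckeAlgebra.T hℓ hℓN (Set.notMem_empty ℓ) : CuspForm.heckeAlgebra N 2 ∅)
        (G * Rr (ℓ : ℤ) r) = (δ : CuspForm.heckeAlgebra N 2 ∅))
    (R : modularFunctionFieldBar N → Prop) (hRdiv : ∀ u v, R u → R v → R (u / v))
    (hRpow : ∀ u (n : ℕ), R u → R (u ^ n)) (hRφ : ∀ u, R u → R (galF N φ u))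
    (hRK : ∀ n u, R u → MDiv Qb (p ^ n) u → ∃ w, u = w ^ (p ^ n))
    (g : modularFunctionFieldBar N) (hg : g ≠ 0) (k : ℕ)
    (H : ∀ j, ∃ h, R h ∧ MDiv Qb (p ^ (k + j)) (g / h ^ (p ^ k))) :
    ∃ s : modularFunctionFieldBar N, g = s ^ (p ^ k) := by
  set D := thetaSys N p hp with hD
  obtain ⟨r, hr, hfix⟩ := exists_pow_fix φ g
  obtain ⟨G, δ, hδ, hG⟩ := hZ0 r hr
  set n := δ.natAbs with hn
  have hn0 : 0 < n := Int.natAbs_pos.2 hδ
  set K := k + n with hKdef
  obtain ⟨h, hRh, hu⟩ := H n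
  set u := g / h ^ (p ^ k) with hudef
  have hh0 : h ≠ 0 := by
    rintro rfl
    apply hu.1
    rw [hudef, zero_pow (pow_pos hp k).ne', div_zero]
  have hσh0 : galF N (φ ^ r) h ≠ 0 := (map_ne_zero_iff _ (galF N (φ ^ r)).injective).2 hh0
  -- `φ ^ r` fixes the class of `u`
  have hv : galF N (φ ^ r) u = u * (h / galF N (φ ^ r) h) ^ (p ^ k) := by
    rw [hudef, map_div₀, map_pow, hfix, div_pow]
    field_simp
  have hRv : R ((h / galF N (φ ^ r) h) ^ (p ^ k)) :=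
    hRpow _ _ (hRdiv _ _ hRh (galF_pow_induction φ R hRφ r h hRh))
  have hMv : MDiv Qb (p ^ K) ((h / galF N (φ ^ r) h) ^ (p ^ k)) := by
    have h1 := (mDiv_galF hu (φ ^ r)).mul' hu.inv'
    rw [hv, mul_comm u, mul_assoc, mul_inv_cancel₀ hu.1, mul_one] at h1
    exact h1
  obtain ⟨w, hw⟩ := hRK K _ hRv hMv
  have hw0 : w ≠ 0 := by
    rintro rfl
    rw [zero_pow (pow_pos hp K).ne'] at hw
    exact hMv.1 hw
  have hsame : SameClass (p ^ K) u (galF N (φ ^ r) u) := ⟨w, hw0, by rw [hv, hw]⟩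
  obtain ⟨x, hx⟩ := (D.isTheta K).exists_right hu
  have h1 := zsmul_mem_powSub D hp K hℓ hℓN hA hK hφ hG hu hx hsame
  obtain ⟨w', hw'⟩ := exists_pow_natAbs_eq D hu hx h1
  obtain ⟨c, hc⟩ := exists_mul_gcd_eq (p := p) hn0 k
  obtain ⟨v, hv'⟩ := exists_pow_eq_of_pow_eq_pow Qb hu.1 hn0 (pow_pos hp K) hc hw'
  refine ⟨v ^ c * h, ?_⟩
  rw [mul_pow, ← pow_mul, mul_comm c, ← hv', hudef, div_mul_cancel₀ _ (pow_ne_zero _ hh0)]

end

end Fermat.Agent.S37lib
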