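import Fermat.Agent.S37.Z0Real

/-!
# T-S37, (Z0-an), part 2: the eigenvalues `a` of `T_ℓ` (`ℓ ∤ N`) on `S₂(Γ₀(N))` satisfy
`|a| < ℓ + 1`

`h(τ) = |f(τ)| Im τ` is `Γ₀(N)`-invariant, continuous, tends to `0` at the cusps, so it attains its
maximum `M > 0` at some `τ₀`; `|a| h(τ) ≤ h(ℓ τ) + ∑_j h((τ + j)/ℓ)`; if `|a| ≥ ℓ + 1` then `ℓ τ₀` is
again a maximum point, and so are all the `ℓ ^ n τ₀`: absurd since `h → 0` at `i∞`.
-/

set_option autoImplicit false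
set_option linter.unusedSectionVars false
open UpperHalfPlane CongruenceSubgroup Filter Topology CuspForm
open scoped MatrixGroups ModularForm
open Fermat.Agent.S31lib

namespace Fermat.Agent.S37lib

/-- a continuous nonnegative function on `ℍ`, invariant under a finite index subgroup of
`SL₂(ℤ)`, which tends to `0` at all cusps, attains its maximum -/
theorem exists_forall_le_of_invariant (Γ : Subgroup SL(2, ℤ)) [Γ.FiniteIndex] (P : ℍ → ℝ)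
    (hc : Continuous P) (h0 : ∀ τ, 0 ≤ P τ)
    (hinv : ∀ γ ∈ Γ, ∀ τ : ℍ, P (γ • τ) = P τ)
    (hcusp : ∀ g : SL(2, ℤ), Tendsto (fun τ : ℍ => P (g • τ)) atImInfty (𝓝 0)) :
    ∃ τ₀, ∀ τ, P τ ≤ P τ₀ := by
  classical
  by_cases hpos : ∃ τ₁, 0 < P τ₁
  swap
  · push Not at hpos
    exact ⟨UpperHalfPlane.I, fun τ => (hpos τ).trans (h0 _)⟩
  obtain ⟨τ₁, hτ₁⟩ := hpos
  have : Finite (SL(2, ℤ) ⧸ Γ) := Subgroup.finite_quotient_of_finiteIndex
  -- the heights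
  have hY : ∀ q : SL(2, ℤ) ⧸ Γ, ∃ Y : ℝ, ∀ τ : ℍ, Y ≤ τ.im → P ((q.out)⁻¹ • τ) < P τ₁ := by
    intro q
    have := (hcusp (q.out)⁻¹).eventually (gt_mem_nhds hτ₁)
    rw [atImInfty_basis.eventually_iff] at this
    obtain ⟨Y, -, hY⟩ := this
    exact ⟨Y, fun τ hτ => hY hτ⟩
  choose Yq hYq using hY
  obtain ⟨Y, hYmax⟩ : ∃ Y, ∀ q, Yq q ≤ Y := by
    obtain ⟨Y, hY⟩ := (Set.finite_range Yq).bddAbove
    exact ⟨Y, fun q => hY (Set.mem_range_self q)⟩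
  -- reduction to the fundamental domain
  have hred : ∀ τ : ℍ, ∃ (q : SL(2, ℤ) ⧸ Γ) (τ' : ℍ), τ' ∈ ModularGroup.fd ∧
      P τ = P ((q.out)⁻¹ • τ') := by
    intro τ
    obtain ⟨γ, hγ⟩ := ModularGroup.exists_smul_mem_fd τ
    refine ⟨(γ : SL(2, ℤ) ⧸ Γ), γ • τ, hγ, ?_⟩
    have h1 : ((γ : SL(2, ℤ) ⧸ Γ).out)⁻¹ * γ ∈ Γ := by
      rw [← QuotientGroup.eq]
      exact QuotientGroup.out_eq' _
    rw [← mul_smul, hinv _ h1]
  set K := ModularGroup.truncatedFundamentalDomain Y with hK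
  have hKc : IsCompact K := ModularGroup.isCompact_truncatedFundamentalDomain Y
  -- the representative of `τ₁` lies in `K`
  have hlow : ∀ τ : ℍ, P τ₁ ≤ P τ → ∃ (q : SL(2, ℤ) ⧸ Γ) (τ' : ℍ), τ' ∈ K ∧
      P τ = P ((q.out)⁻¹ • τ') := by
    intro τ hτ
    obtain ⟨q, τ', hτ', he⟩ := hred τ
    refine ⟨q, τ', ⟨hτ', ?_⟩, he⟩
    by_contra hlt
    push Not at hlt
    have := hYq q τ' ((hYmax q).trans hlt.le)
    rw [← he] at this
    exact absurd hτ (not_le.mpr this)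
  have hKne : K.Nonempty := by
    obtain ⟨q, τ', hτ', -⟩ := hlow τ₁ le_rfl
    exact ⟨τ', hτ'⟩
  have hmaxq : ∀ q : SL(2, ℤ) ⧸ Γ, ∃ τq ∈ K, ∀ τ ∈ K, P ((q.out)⁻¹ • τ) ≤ P ((q.out)⁻¹ • τq) := by
    intro q
    have hcq : Continuous fun τ : ℍ => P ((q.out)⁻¹ • τ) :=
      hc.comp (continuous_const_smul (((q.out)⁻¹ : SL(2, ℤ)) : GL (Fin 2) ℝ))
    obtain ⟨τq, hτq, hmax⟩ := hKc.exists_isMaxOn hKne hcq.continuousOn
    exact ⟨τq, hτq, fun τ hτ => hmax hτ⟩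
  choose τq hτqK hτq using hmaxq
  have : Nonempty (SL(2, ℤ) ⧸ Γ) := ⟨(1 : SL(2, ℤ))⟩
  obtain ⟨q₀, hq₀⟩ := Finite.exists_max (fun q => P ((q.out)⁻¹ • τq q))
  refine ⟨(q₀.out)⁻¹ • τq q₀, fun τ => ?_⟩
  have hbig : ∀ τ : ℍ, P τ₁ ≤ P τ → P τ ≤ P ((q₀.out)⁻¹ • τq q₀) := by
    intro τ hτ
    obtain ⟨q, τ', hτ', he⟩ := hlow τ hτ
    rw [he]
    exact (hτq q τ' hτ').trans (hq₀ q)
  rcases le_total (P τ₁) (P τ) with h | h
  · exact hbig τ h
  · exact h.trans (hbig τ₁ le_rfl)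

/-- `h(τ) = |f(τ)| Im τ` -/
noncomputable def hgt (f : ℍ → ℂ) (τ : ℍ) : ℝ := ‖f τ‖ * τ.im

theorem hgt_nonneg (f : ℍ → ℂ) (τ : ℍ) : 0 ≤ hgt f τ :=
  mul_nonneg (norm_nonneg _) τ.im_pos.le

theorem norm_petersson_self (f : ℍ → ℂ) (τ : ℍ) : ‖petersson 2 f f τ‖ = hgt f τ ^ 2 := by
  rw [petersson_self, Complex.norm_real, Real.norm_of_nonneg (by positivity), hgt, mul_pow]

theorem im_heckeMatrix_smul {ℓ : ℕ} (hℓ : ℓ ≠ 0) (j : ℕ) (τ : ℍ) :
    (ModularForm.heckeMatrix ℓ j • τ).im = τ.im / ℓ := by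
  have h := congrArg Complex.im (ModularForm.coe_heckeMatrix_smul hℓ j τ)
  rw [UpperHalfPlane.coe_im] at h
  rw [h, Complex.div_natCast_im]
  simp

theorem im_heckeDiagMatrix_smul {ℓ : ℕ} (hℓ : ℓ ≠ 0) (τ : ℍ) :
    (ModularForm.heckeDiagMatrix ℓ • τ).im = ℓ * τ.im := by
  have h := congrArg Complex.im (ModularForm.coe_heckeDiagMatrix_smul hℓ τ)
  rw [UpperHalfPlane.coe_im] at h
  rw [h]
  simp

theorem hgt_heckeT_le {ℓ : ℕ} (hℓ : ℓ ≠ 0) (f : ℍ → ℂ) (τ : ℍ) :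
    hgt (ModularForm.heckeT 2 ℓ f) τ ≤
      ∑ j ∈ Finset.range ℓ, hgt f (ModularForm.heckeMatrix ℓ j • τ) +
        hgt f (ModularForm.heckeDiagMatrix ℓ • τ) := by
  have hℓ' : (0 : ℝ) < ℓ := by exact_mod_cast Nat.pos_of_ne_zero hℓ
  simp only [hgt, im_heckeMatrix_smul hℓ, im_heckeDiagMatrix_smul hℓ]
  rw [ModularForm.heckeT_apply 2 hℓ]
  have h1 : ‖(ℓ : ℂ)⁻¹ * ∑ j ∈ Finset.range ℓ, f (ModularForm.heckeMatrix ℓ j • τ) +
      (ℓ : ℂ) ^ ((2 : ℤ) - 1) * f (ModularForm.heckeDiagMatrix ℓ • τ)‖ ≤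
      (ℓ : ℝ)⁻¹ * ∑ j ∈ Finset.range ℓ, ‖f (ModularForm.heckeMatrix ℓ j • τ)‖ +
      (ℓ : ℝ) * ‖f (ModularForm.heckeDiagMatrix ℓ • τ)‖ := by
    refine (norm_add_le _ _).trans (add_le_add ?_ ?_)
    · rw [norm_mul, norm_inv, Complex.norm_natCast]
      exact mul_le_mul_of_nonneg_left (norm_sum_le _ _) (by positivity)
    · rw [norm_mul]
      norm_num
  refine (mul_le_mul_of_nonneg_right h1 τ.im_pos.le).trans (le_of_eq ?_)
  rw [add_mul, Finset.mul_sum, Finset.sum_mul]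
  congr 1
  · refine Finset.sum_congr rfl fun j _ => ?_
    field_simp
  · ring

variable {N : ℕ} [NeZero N]

open ConjAct Pointwise Matrix.SpecialLinearGroup in
theorem tendsto_petersson_smul (f : CuspForm (Gamma0 N) 2) (g : SL(2, ℤ)) :
    Tendsto (fun τ : ℍ => ‖petersson 2 f f (g • τ)‖) atImInfty (𝓝 0) := by
  rw [← tendsto_zero_iff_norm_tendsto_zero]
  simp_rw [← UpperHalfPlane.petersson_slash_SL]
  have : ((toConjAct (g : GL (Fin 2) ℝ)⁻¹) • (Gamma0 N : Subgroup (GL (Fin 2) ℝ))).IsArithmetic := by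
    simpa [(show Rat.castHom ℝ = algebraMap ℚ ℝ by rfl), map_inv, map_mapGL]
      using! Subgroup.IsArithmetic.conj (Gamma0 N : Subgroup (GL (Fin 2) ℝ)) (mapGL ℚ g)⁻¹
  exact (CuspFormClass.zero_at_infty <| CuspForm.translate f g).petersson_isZeroAtImInfty_left 2 _
    (ModularForm.translate f g)

/-- `|f| Im` attains its maximum -/
theorem exists_hgt_max (f : CuspForm (Gamma0 N) 2) : ∃ τ₀ : ℍ, ∀ τ, hgt f τ ≤ hgt f τ₀ := by
  obtain ⟨τ₀, h⟩ := exists_forall_le_of_invariant (Gamma0 N) (fun τ => ‖petersson 2 f f τ‖)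
    (by fun_prop) (fun _ => norm_nonneg _)
    (fun γ hγ τ => SlashInvariantFormClass.norm_petersson_smul (k := 2) (f := f) (f' := f)
      (g := (γ : GL (Fin 2) ℝ)) (Subgroup.mem_map_of_mem _ hγ))
    (tendsto_petersson_smul f)
  refine ⟨τ₀, fun τ => ?_⟩
  have := h τ
  simp only [norm_petersson_self] at this
  exact (pow_le_pow_iff_left₀ (hgt_nonneg _ _) (hgt_nonneg _ _) two_ne_zero).mp this

theorem tendsto_hgt (f : CuspForm (Gamma0 N) 2) : Tendsto (hgt f) atImInfty (𝓝 0) := by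
  have h := tendsto_petersson_smul f 1
  simp only [one_smul, norm_petersson_self] at h
  have h2 := (Real.continuous_sqrt.tendsto 0).comp h
  rw [Real.sqrt_zero] at h2
  refine h2.congr fun τ => ?_
  simp only [Function.comp]
  exact Real.sqrt_sq (hgt_nonneg _ _)

/-- the eigenvalues of `T_ℓ` on cusp forms of weight two are `< ℓ + 1` in absolute value -/
theorem eigenvalue_norm_lt {ℓ : ℕ} (hℓ : ℓ.Prime) (hℓN : ¬ ℓ ∣ N)
    {f : CuspForm (Gamma0 N) 2} (hf : f ≠ 0) {a : ℂ} (h : heckeTLin 2 hℓ hℓN f = a • f) :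
    ‖a‖ < ℓ + 1 := by
  by_contra hge
  push Not at hge
  have hℓ0 : ℓ ≠ 0 := hℓ.ne_zero
  obtain ⟨τ₀, hmax⟩ := exists_hgt_max f
  set M := hgt f τ₀ with hM
  have hMpos : 0 < M := by
    obtain ⟨τ, hτ⟩ : ∃ τ, f τ ≠ 0 := by
      by_contra hall
      push Not at hall
      exact hf (by ext τ; exact hall τ)
    exact lt_of_lt_of_le (mul_pos (norm_pos_iff.mpr hτ) τ.im_pos) (hmax τ)
  -- the key step
  have hstep : ∀ τ : ℍ, hgt f τ = M → hgt f (ModularForm.heckeDiagMatrix ℓ • τ) = M := by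
    intro τ hτ
    refine le_antisymm (hmax _) ?_
    have h1 := hgt_heckeT_le hℓ0 f τ
    have h2 : hgt (ModularForm.heckeT 2 ℓ f) τ = ‖a‖ * M := by
      have h3 : ModularForm.heckeT 2 ℓ f τ = a * f τ := by
        have := congrArg (fun g : CuspForm (Gamma0 N) 2 => g τ) h
        simp only [coe_heckeTLin_apply] at this
        rw [this]
        simp
      rw [hgt, h3, norm_mul, mul_assoc, ← hτ, hgt]
    have h4 : ∑ j ∈ Finset.range ℓ, hgt f (ModularForm.heckeMatrix ℓ j • τ) ≤ ℓ * M := by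
      refine (Finset.sum_le_card_nsmul _ _ M fun j _ => hmax _).trans (le_of_eq ?_)
      simp
    rw [h2] at h1
    nlinarith
  have hiter : ∀ n : ℕ, ∃ τ : ℍ, hgt f τ = M ∧ τ.im = (ℓ : ℝ) ^ n * τ₀.im := by
    intro n
    induction n with
    | zero => exact ⟨τ₀, rfl, by simp⟩
    | succ n ih =>
      obtain ⟨τ, h1, h2⟩ := ih
      refine ⟨ModularForm.heckeDiagMatrix ℓ • τ, hstep τ h1, ?_⟩
      rw [im_heckeDiagMatrix_smul hℓ0, h2]
      ring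
  have hev := (tendsto_hgt f).eventually (gt_mem_nhds hMpos)
  rw [atImInfty_basis.eventually_iff] at hev
  obtain ⟨Y, -, hY⟩ := hev
  have hℓ1 : (1 : ℝ) < ℓ := by exact_mod_cast hℓ.one_lt
  obtain ⟨n, hn⟩ := pow_unbounded_of_one_lt (Y / τ₀.im) hℓ1
  obtain ⟨τ, h1, h2⟩ := hiter n
  have h3 : Y ≤ τ.im := by
    rw [h2]
    exact ((div_lt_iff₀ τ₀.im_pos).mp hn).le
  have h4 : hgt f τ < M := hY h3
  exact absurd h1 h4.ne

end Fermat.Agent.S37lib
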