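import Fermat.Agent.S31.Reduced

/-!
# T-S37, (Z0-an), part 1: the eigenvalues of `T_ℓ` (`ℓ ∤ N`) on `S₂(Γ₀(N))` are real
-/

set_option autoImplicit false
open UpperHalfPlane CongruenceSubgroup MeasureTheory CuspForm
open scoped MatrixGroups
open Fermat.Agent.S31lib

namespace Fermat.Agent.S37lib

variable {N : ℕ} [NeZero N] {w : ℍ → ℝ}

theorem pet_smul_left (a : ℂ) (f g : CuspForm (Gamma0 N) 2) :
    pet w (a • f) g = (starRingEnd ℂ a) * pet w f g := by
  unfold pet
  rw [← integral_const_mul]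
  refine integral_congr_ae (Filter.Eventually.of_forall fun z => ?_)
  have h1 : (a • f : CuspForm (Gamma0 N) 2) z = a * f z := by simp
  simp only [petersson, h1, map_mul]
  ring

theorem pet_smul_right (a : ℂ) (f g : CuspForm (Gamma0 N) 2) :
    pet w f (a • g) = a * pet w f g := by
  unfold pet
  rw [← integral_const_mul]
  refine integral_congr_ae (Filter.Eventually.of_forall fun z => ?_)
  have h1 : (a • g : CuspForm (Gamma0 N) 2) z = a * g z := by simp
  simp only [petersson, h1]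
  ring

/-- the eigenvalues of `T_ℓ` are real -/
theorem eigenvalue_im_eq_zero {ℓ : ℕ} (hℓ : ℓ.Prime) (hℓN : ¬ ℓ ∣ N)
    {f : CuspForm (Gamma0 N) 2} (hf : f ≠ 0) {a : ℂ} (h : heckeTLin 2 hℓ hℓN f = a • f) :
    a.im = 0 := by
  obtain ⟨w, hw⟩ := exists_isWeight N
  have h1 := pet_heckeT hw hℓ hℓN f f
  rw [h, pet_smul_left, pet_smul_right] at h1
  have h2 : pet w f f ≠ 0 := fun h0 => hf (eq_zero_of_pet_self hw f h0)
  have h3 := mul_right_cancel₀ h2 h1
  exact Complex.conj_eq_iff_im.mp h3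

end Fermat.Agent.S37lib
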